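/-
S56lib / Ram / Fprop (helper6).
Fontaine's property `(P_r)`, in a form stable under composita.  `Fprop ϖ r M` says: whenever
`M` sits in a totally ramified Galois `L / K` with uniformizer `π`, every integral `β` with
`‖β‖ ≤ 1` and `‖(minpoly K π)(β)‖ ≤ r` satisfies `M ≤ K(β)`.
* `Fprop.sup`, `Fprop.iSup`, `Fprop.of_le`, `Fprop.bot` : formal stability;
* `TotRam.break_bound_of_Fprop` : the break bound `(p-1) t ≤ e'` from `Fprop`.
-/
import Fermat.Agent.S56lib.Ram.Final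

set_option autoImplicit false
set_option linter.unusedSectionVars false

noncomputable section

namespace Fermat.Agent.S56lib.Ram

open Polynomial IntermediateField

variable {K Ω : Type*} [NormedField K] [NormedField Ω] [NormedAlgebra K Ω] [IsUltrametricDist Ω]

/-- Fontaine's property `(P_r)` for the subfield `M` -/
def Fprop (ϖ : K) (r : ℝ) (M : IntermediateField K Ω) : Prop :=
  ∀ (L : IntermediateField K Ω) [FiniteDimensional K L] [IsGalois K L] (π : L),
    TotRam ϖ L π → M ≤ L → ∀ β : Ω, IsIntegral K β → ‖β‖ ≤ 1 →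
      ‖aeval β (minpoly K π)‖ ≤ r → M ≤ K⟮β⟯

namespace Fprop

variable {ϖ : K} {r : ℝ}

theorem bot : Fprop ϖ r (⊥ : IntermediateField K Ω) := by
  intro L _ _ π _ _ β _ _ _
  exact bot_le

theorem sup {M₁ M₂ : IntermediateField K Ω} (h1 : Fprop ϖ r M₁) (h2 : Fprop ϖ r M₂) :
    Fprop ϖ r (M₁ ⊔ M₂) := by
  intro L _ _ π hL hML β hint hβ hP
  exact sup_le (h1 L π hL (le_sup_left.trans hML) β hint hβ hP)
    (h2 L π hL (le_sup_right.trans hML) β hint hβ hP)

theorem iSup {ι : Sort*} {M : ι → IntermediateField K Ω} (h : ∀ i, Fprop ϖ r (M i)) :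
    Fprop ϖ r (⨆ i, M i) := by
  intro L _ _ π hL hML β hint hβ hP
  exact iSup_le (fun i => h i L π hL ((le_iSup M i).trans hML) β hint hβ hP)

theorem of_le {r' : ℝ} (hr : r' ≤ r) {M : IntermediateField K Ω} (h : Fprop ϖ r M) :
    Fprop ϖ r' M := by
  intro L _ _ π hL hML β hint hβ hP
  exact h L π hL hML β hint hβ (hP.trans hr)

/-- it suffices to control generators -/
theorem adjoin {S : Set Ω}
    (h : ∀ x ∈ S, Fprop ϖ r K⟮x⟯) : Fprop ϖ r (IntermediateField.adjoin K S) := by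
  intro L _ _ π hL hML β hint hβ hP
  rw [IntermediateField.adjoin_le_iff]
  intro x hx
  have h1 : K⟮x⟯ ≤ L := by
    rw [IntermediateField.adjoin_simple_le_iff]
    exact hML (IntermediateField.subset_adjoin K S hx)
  have h2 := h x hx L π hL h1 β hint hβ hP
  exact h2 (IntermediateField.mem_adjoin_simple_self K x)

end Fprop

namespace TotRam

variable {L : IntermediateField K Ω} [FiniteDimensional K L] {π : L}

/-- **the break bound from Fontaine's property** -/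
theorem break_bound_of_Fprop [DecidableEq (L ≃ₐ[K] L)] [IsGalois K L] [IsAlgClosed Ω] {p : ℕ}
    (h : TotRam ((p : ℕ) : K) L π)
    (hF : ∀ r : ℝ, r ^ (p - 1) < ‖((p : ℕ) : K)‖ ^ p → Fprop ((p : ℕ) : K) r L)
    (H N : Subgroup (L ≃ₐ[K] L)) [Fintype H] [Fintype N] (hNH : N ≤ H)
    (σ' : L ≃ₐ[K] L) (hσ'H : σ' ∈ H) (hσ'N : σ' ∉ N)
    (hH : ∀ σ : L ≃ₐ[K] L, σ ∉ H → dsub (π := π) σ = ‖(π : Ω)‖)
    (π₁ : L) (hfix : ∀ τ ∈ N, τ π₁ = π₁) (hnorm : ‖(π₁ : Ω)‖ = ‖(π : Ω)‖ ^ Nat.card N)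
    (t : ℕ) (hδ : ∀ σ ∈ H, ‖((σ π₁ - π₁ : L) : Ω)‖ ≤ ‖(π₁ : Ω)‖ ^ (t + 1))
    (e' : ℕ) (he' : Module.finrank K L = e' * Fintype.card H) (hpH : p ≤ Fintype.card H) :
    (p - 1) * t ≤ e' :=
  h.break_bound (fun r hr β hint hβ hP => hF r hr L π h le_rfl β hint hβ hP)
    H N hNH σ' hσ'H hσ'N hH π₁ hfix hnorm t hδ e' he' hpH

end TotRam

end Fermat.Agent.S56lib.Ram
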