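/-
S56lib / Ram / Basic (helper6).
Totally ramified extensions of a discretely normed field inside an ultrametric normed field `Ω`:
if `‖π‖ ^ n = ‖ϖ‖` (`ϖ` a uniformizer of `K`, the norm of `K` is discrete) then the norms of
`∑_{i<n} a_i π^i` (`a_i ∈ K`) are computed termwise.
* `norm_term_le_norm_sum` : `‖a_i‖ ‖π‖^i ≤ ‖∑_j a_j π^j‖`;
* `norm_sum_pow_eq_zpow` : a nonzero sum has norm `‖π‖ ^ k`, `k : ℤ`;
* `norm_coeff_le_one_of_norm_sum_le_one` : `𝒪_L = 𝒪_K[π]` in coordinates.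
-/
import Mathlib

set_option autoImplicit false
set_option linter.unusedSectionVars false

noncomputable section

namespace Fermat.Agent.S56lib.Ram

open Polynomial

/-- a discretely normed field: `ϖ` is a uniformizer -/
structure IsUnif {K : Type*} [NormedField K] (ϖ : K) : Prop where
  pos : 0 < ‖ϖ‖
  lt_one : ‖ϖ‖ < 1
  disc : ∀ x : K, x ≠ 0 → ∃ k : ℤ, ‖x‖ = ‖ϖ‖ ^ k

section Zpow

variable {r : ℝ}

theorem zpow_injective_of_lt_one (h0 : 0 < r) (h1 : r < 1) : Function.Injective (fun k : ℤ => r ^ k) :=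
  zpow_right_injective₀ h0 h1.ne

theorem zpow_le_zpow_iff_of_lt_one (h0 : 0 < r) (h1 : r < 1) {a b : ℤ} : r ^ a ≤ r ^ b ↔ b ≤ a :=
  zpow_le_zpow_iff_right_of_lt_one₀ h0 h1

theorem zpow_lt_zpow_iff_of_lt_one (h0 : 0 < r) (h1 : r < 1) {a b : ℤ} : r ^ a < r ^ b ↔ b < a :=
  zpow_lt_zpow_iff_right_of_lt_one₀ h0 h1

end Zpow

section Expansion

variable {K Ω : Type*} [NormedField K] [NormedField Ω] [NormedAlgebra K Ω] [IsUltrametricDist Ω]
  {ϖ : K} (hϖ : IsUnif ϖ) {n : ℕ} (hn : 0 < n) {π : Ω} (hπ : ‖π‖ ^ n = ‖ϖ‖)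

include hϖ hn hπ

theorem norm_pi_pos : 0 < ‖π‖ := by
  by_contra h
  have h0 : ‖π‖ = 0 := le_antisymm (not_lt.1 h) (norm_nonneg _)
  rw [h0, zero_pow hn.ne'] at hπ
  exact hϖ.pos.ne hπ

theorem norm_pi_lt_one : ‖π‖ < 1 := by
  by_contra h
  have h1 : 1 ≤ ‖π‖ := not_lt.1 h
  have h2 : 1 ≤ ‖π‖ ^ n := one_le_pow₀ h1
  rw [hπ] at h2
  exact absurd hϖ.lt_one (not_lt.2 h2)

/-- the norm of a term `a π^i`, `a ≠ 0`, is `‖π‖ ^ (n k + i)` -/
theorem norm_term_eq_zpow (a : K) (ha : a ≠ 0) (i : ℕ) :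
    ∃ k : ℤ, ‖a‖ = ‖ϖ‖ ^ k ∧ ‖a • π ^ i‖ = ‖π‖ ^ ((n : ℤ) * k + i) := by
  obtain ⟨k, hk⟩ := hϖ.disc a ha
  refine ⟨k, hk, ?_⟩
  have hp := norm_pi_pos hϖ hn hπ
  rw [norm_smul, norm_pow, hk, ← hπ, zpow_add₀ hp.ne', zpow_mul, zpow_natCast, zpow_natCast]

/-- two nonzero terms of different degrees `< n` have different norms -/
theorem norm_term_ne (a b : K) (ha : a ≠ 0) (hb : b ≠ 0) {i j : ℕ} (hi : i < n) (hj : j < n)
    (hij : i ≠ j) : ‖a • π ^ i‖ ≠ ‖b • π ^ j‖ := by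
  obtain ⟨k, -, hk⟩ := norm_term_eq_zpow hϖ hn hπ a ha i
  obtain ⟨l, -, hl⟩ := norm_term_eq_zpow hϖ hn hπ b hb j
  rw [hk, hl]
  intro h
  have h1 := zpow_injective_of_lt_one (norm_pi_pos hϖ hn hπ) (norm_pi_lt_one hϖ hn hπ) h
  have h2 : ((i : ℤ)) % n = (j : ℤ) % n := by
    have e1 : ((n : ℤ) * k + i) % n = (i : ℤ) % n := by
      rw [add_comm, Int.add_mul_emod_self_left]
    have e2 : ((n : ℤ) * l + j) % n = (j : ℤ) % n := by
      rw [add_comm, Int.add_mul_emod_self_left]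
    rw [← e1, ← e2, h1]
  rw [Int.emod_eq_of_lt (by positivity) (by exact_mod_cast hi),
    Int.emod_eq_of_lt (by positivity) (by exact_mod_cast hj)] at h2
  exact hij (by exact_mod_cast h2)

/-- **termwise norms**: every term is bounded by the norm of the sum -/
theorem norm_term_le_norm_sum (a : ℕ → K) (i : ℕ) (hi : i < n) :
    ‖a i • π ^ i‖ ≤ ‖∑ j ∈ Finset.range n, a j • π ^ j‖ := by
  classical
  by_cases hai : a i = 0
  · rw [hai, zero_smul, norm_zero]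
    exact norm_nonneg _
  let s : Finset ℕ := (Finset.range n).filter (fun j => a j ≠ 0)
  have hs : ∑ j ∈ Finset.range n, a j • π ^ j = ∑ j ∈ s, a j • π ^ j := by
    symm
    apply Finset.sum_filter_of_ne
    intro j _ hj h0
    apply hj
    rw [h0, zero_smul]
  have his : i ∈ s := Finset.mem_filter.2 ⟨Finset.mem_range.2 hi, hai⟩
  have hne : s.Nonempty := ⟨i, his⟩
  have hpw : Set.Pairwise (s : Set ℕ) (fun j l => ‖a j • π ^ j‖ ≠ ‖a l • π ^ l‖) := by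
    intro j hj l hl hjl
    have hj' := Finset.mem_filter.1 hj
    have hl' := Finset.mem_filter.1 hl
    exact norm_term_ne hϖ hn hπ (a j) (a l) hj'.2 hl'.2 (Finset.mem_range.1 hj'.1)
      (Finset.mem_range.1 hl'.1) hjl
  rw [hs, IsUltrametricDist.norm_sum_eq_sup'_of_pairwise_ne hne hpw]
  exact Finset.le_sup' (fun j => ‖a j • π ^ j‖) his

/-- a sum with a nonzero coefficient is nonzero -/
theorem sum_ne_zero_of_coeff_ne_zero (a : ℕ → K) (i : ℕ) (hi : i < n) (hai : a i ≠ 0) :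
    ∑ j ∈ Finset.range n, a j • π ^ j ≠ 0 := by
  intro h
  have h1 := norm_term_le_norm_sum hϖ hn hπ a i hi
  rw [h, norm_zero] at h1
  have h2 : a i • π ^ i = 0 := norm_le_zero_iff.1 h1
  rcases smul_eq_zero.1 h2 with h3 | h3
  · exact hai h3
  · have hp := norm_pi_pos hϖ hn hπ
    exact pow_ne_zero i (norm_pos_iff.1 hp) h3

/-- **the value group**: a nonzero sum has norm `‖π‖ ^ k` -/
theorem norm_sum_pow_eq_zpow (a : ℕ → K) (h : ∑ j ∈ Finset.range n, a j • π ^ j ≠ 0) :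
    ∃ k : ℤ, ‖∑ j ∈ Finset.range n, a j • π ^ j‖ = ‖π‖ ^ k := by
  classical
  let s : Finset ℕ := (Finset.range n).filter (fun j => a j ≠ 0)
  have hs : ∑ j ∈ Finset.range n, a j • π ^ j = ∑ j ∈ s, a j • π ^ j := by
    symm
    apply Finset.sum_filter_of_ne
    intro j _ hj h0
    apply hj
    rw [h0, zero_smul]
  have hne : s.Nonempty := by
    by_contra h0
    rw [Finset.not_nonempty_iff_eq_empty] at h0
    rw [hs, h0, Finset.sum_empty] at h
    exact h rfl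
  have hpw : Set.Pairwise (s : Set ℕ) (fun j l => ‖a j • π ^ j‖ ≠ ‖a l • π ^ l‖) := by
    intro j hj l hl hjl
    have hj' := Finset.mem_filter.1 hj
    have hl' := Finset.mem_filter.1 hl
    exact norm_term_ne hϖ hn hπ (a j) (a l) hj'.2 hl'.2 (Finset.mem_range.1 hj'.1)
      (Finset.mem_range.1 hl'.1) hjl
  rw [hs, IsUltrametricDist.norm_sum_eq_sup'_of_pairwise_ne hne hpw]
  obtain ⟨j, hj, hj'⟩ := Finset.exists_mem_eq_sup' hne (fun j => ‖a j • π ^ j‖)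
  rw [hj']
  obtain ⟨k, -, hk⟩ := norm_term_eq_zpow hϖ hn hπ (a j) (Finset.mem_filter.1 hj).2 j
  exact ⟨_, hk⟩

/-- **`𝒪_L = 𝒪_K[π]`**: an integral sum has integral coefficients -/
theorem norm_coeff_le_one_of_norm_sum_le_one (a : ℕ → K)
    (h : ‖∑ j ∈ Finset.range n, a j • π ^ j‖ ≤ 1) (i : ℕ) (hi : i < n) : ‖a i‖ ≤ 1 := by
  by_cases hai : a i = 0
  · rw [hai, norm_zero]
    exact zero_le_one
  have h1 := (norm_term_le_norm_sum hϖ hn hπ a i hi).trans h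
  obtain ⟨k, hk, hk'⟩ := norm_term_eq_zpow hϖ hn hπ (a i) hai i
  rw [hk'] at h1
  have hp := norm_pi_pos hϖ hn hπ
  have hp1 := norm_pi_lt_one hϖ hn hπ
  have h2 : (0 : ℤ) ≤ (n : ℤ) * k + i := by
    rw [← zpow_zero ‖π‖] at h1
    exact (zpow_le_zpow_iff_of_lt_one hp hp1).1 h1
  have h3 : 0 ≤ k := by
    by_contra h4
    have h5 : k ≤ -1 := by omega
    have h6 : (n : ℤ) * k ≤ (n : ℤ) * (-1) := mul_le_mul_of_nonneg_left h5 (by positivity)
    have h7 : (i : ℤ) < n := by exact_mod_cast hi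
    omega
  rw [hk]
  exact zpow_le_one₀ hϖ.pos hϖ.lt_one.le h3

end Expansion

section Compare

variable {K Ω : Type*} [NormedField K] [NormedField Ω] [NormedAlgebra K Ω] [IsUltrametricDist Ω]
  {ϖ : K} (hϖ : IsUnif ϖ) {n : ℕ} (hn : 0 < n) {π β : Ω} (hπ : ‖π‖ ^ n = ‖ϖ‖)

include hϖ hn hπ in
/-- expansions in two elements of the same norm have the same norm -/
theorem norm_sum_le_norm_sum_of_norm_eq (hβ : ‖β‖ = ‖π‖) (a : ℕ → K) :
    ‖∑ j ∈ Finset.range n, a j • β ^ j‖ ≤ ‖∑ j ∈ Finset.range n, a j • π ^ j‖ := by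
  apply IsUltrametricDist.norm_sum_le_of_forall_le_of_nonneg (norm_nonneg _)
  intro j hj
  have h1 := norm_term_le_norm_sum hϖ hn hπ a j (Finset.mem_range.1 hj)
  rw [norm_smul, norm_pow] at h1 ⊢
  rw [hβ]
  exact h1

include hϖ hn hπ in
theorem norm_sum_eq_norm_sum_of_norm_eq (hβ : ‖β‖ = ‖π‖) (a : ℕ → K) :
    ‖∑ j ∈ Finset.range n, a j • β ^ j‖ = ‖∑ j ∈ Finset.range n, a j • π ^ j‖ := by
  apply le_antisymm (norm_sum_le_norm_sum_of_norm_eq hϖ hn hπ hβ a)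
  have hβ' : ‖β‖ ^ n = ‖ϖ‖ := by rw [hβ, hπ]
  exact norm_sum_le_norm_sum_of_norm_eq hϖ hn hβ' hβ.symm a

end Compare

end Fermat.Agent.S56lib.Ram
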