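/-
S56lib / Ram / Conj (helper6).
Conjugates of the uniformizer `π` of a totally ramified Galois extension `L / K`:
* `TotRam.natDegree_minpoly` : `deg (minpoly K π) = [L:K]`;
* `TotRam.conj_injective` : `σ ↦ σ π` is injective;
* `TotRam.minpoly_map_eq_prod` : `minpoly K π = ∏_σ (X - σ π)` over `Ω`;
* `TotRam.norm_aeval_eq_prod` : `‖P(β)‖ = ∏_σ ‖β - σ π‖`;
* `TotRam.norm_aeval_eq_prod_max` : `‖P(β)‖ = ∏_τ max(d, ‖π - τ π‖)`, `d = min_σ ‖β - σ π‖`.
-/
import Fermat.Agent.S56lib.Ram.Tot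

set_option autoImplicit false
set_option linter.unusedSectionVars false

noncomputable section

namespace Fermat.Agent.S56lib.Ram

open Polynomial

variable {K Ω : Type*} [NormedField K] [NormedField Ω] [NormedAlgebra K Ω] [IsUltrametricDist Ω]

/-- ultrametric: if `‖a‖ ≤ ‖a + b‖` then `‖a + b‖ = max ‖a‖ ‖b‖` -/
theorem norm_add_eq_max_of_le {a b : Ω} (hab : ‖a‖ ≤ ‖a + b‖) : ‖a + b‖ = max ‖a‖ ‖b‖ := by
  by_cases hne : ‖a‖ = ‖b‖
  · apply le_antisymm (IsUltrametricDist.norm_add_le_max a b)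
    rw [← hne, max_self]
    exact hab
  · exact IsUltrametricDist.norm_add_eq_max_of_norm_ne_norm hne

namespace TotRam

variable {ϖ : K} {L : IntermediateField K Ω} [FiniteDimensional K L] {π : L}
  (h : TotRam ϖ L π)

include h

/-- the conjugate `σ π`, as an element of `Ω` -/
def cj (σ : L ≃ₐ[K] L) : Ω := ((σ π : L) : Ω)

omit h in
theorem cj_def (σ : L ≃ₐ[K] L) : cj (π := π) σ = ((σ π : L) : Ω) := rfl

omit h in
theorem cj_one : cj (π := π) (1 : L ≃ₐ[K] L) = (π : Ω) := rfl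

theorem natDegree_minpoly : (minpoly K π).natDegree = Module.finrank K L := by
  apply le_antisymm (minpoly.natDegree_le π)
  by_contra hlt
  rw [not_le] at hlt
  have h1 := Polynomial.aeval_eq_sum_range' hlt π
  rw [minpoly.aeval] at h1
  have h2 := congrArg (fun x : L => (x : Ω)) h1
  simp only [ZeroMemClass.coe_zero] at h2
  have h3 : ∑ j ∈ Finset.range (Module.finrank K L),
      (minpoly K π).coeff j • (π : Ω) ^ j ≠ 0 := by
    apply sum_ne_zero_of_coeff_ne_zero h.unif h.finrank_pos h.npow _ _ hlt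
    have hm : (minpoly K π).Monic := minpoly.monic (Algebra.IsIntegral.isIntegral π)
    rw [coeff_natDegree, hm.leadingCoeff]
    exact one_ne_zero
  apply h3
  rw [h2]
  rw [AddSubmonoidClass.coe_finsetSum]
  apply Finset.sum_congr rfl
  intro j _
  simp

theorem conj_injective : Function.Injective (fun σ : L ≃ₐ[K] L => σ π) := by
  intro σ τ hστ
  simp only at hστ
  have h1 : σ.toLinearMap = τ.toLinearMap := by
    apply h.powBasis.ext
    intro i
    rw [h.powBasis_apply]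
    simp only [AlgEquiv.toLinearMap_apply, map_pow, hστ]
  apply AlgEquiv.ext
  intro x
  exact congrArg (fun f : L →ₗ[K] L => f x) h1

theorem cj_injective : Function.Injective (cj (π := π) : (L ≃ₐ[K] L) → Ω) := by
  intro σ τ hστ
  apply h.conj_injective
  exact Subtype.ext hστ

variable [IsGalois K L]

/-- `minpoly K π = ∏_σ (X - σ π)` -/
theorem minpoly_map_eq_prod :
    (minpoly K π).map (algebraMap K Ω) = ∏ σ : L ≃ₐ[K] L, (X - C (cj (π := π) σ)) := by
  have hm : (minpoly K π).Monic := minpoly.monic (Algebra.IsIntegral.isIntegral π)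
  have hQm : (∏ σ : L ≃ₐ[K] L, (X - C (cj (π := π) σ))).Monic :=
    monic_prod_of_monic _ _ (fun σ _ => monic_X_sub_C _)
  apply eq_of_monic_of_dvd_of_natDegree_le hQm (hm.map _)
  · apply Fintype.prod_dvd_of_coprime
    · exact pairwise_coprime_X_sub_C h.cj_injective
    · intro σ
      rw [dvd_iff_isRoot, IsRoot.def, eval_map_algebraMap]
      have h1 : aeval (σ π) (minpoly K π) = 0 := by
        rw [Polynomial.aeval_algEquiv, AlgHom.comp_apply, minpoly.aeval, map_zero]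
      have h2 := congrArg (fun x : L => (x : Ω)) h1
      simp only [ZeroMemClass.coe_zero] at h2
      rw [← h2, cj_def]
      exact (aeval_algebraMap_apply Ω (σ π) (minpoly K π))
  · rw [natDegree_map, h.natDegree_minpoly, natDegree_finsetProd_X_sub_C_eq_card,
      Finset.card_univ, ← IsGalois.card_aut_eq_finrank K L, Nat.card_eq_fintype_card]

/-- `‖P(β)‖ = ∏_σ ‖β - σ π‖` -/
theorem norm_aeval_eq_prod (β : Ω) :
    ‖aeval β (minpoly K π)‖ = ∏ σ : L ≃ₐ[K] L, ‖β - cj (π := π) σ‖ := by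
  rw [← eval_map_algebraMap, h.minpoly_map_eq_prod, eval_prod, norm_prod]
  apply Finset.prod_congr rfl
  intro σ _
  rw [eval_sub, eval_X, eval_C]

/-- Galois invariance: `‖σ π - τ π‖ = ‖π - σ⁻¹ τ π‖` -/
theorem norm_cj_sub_cj (σ τ : L ≃ₐ[K] L) :
    ‖cj (π := π) σ - cj (π := π) τ‖ = ‖(π : Ω) - cj (π := π) (σ⁻¹ * τ)‖ := by
  have h1 := h.inv σ (π - (σ⁻¹ * τ) π)
  rw [map_sub] at h1
  have h2 : σ ((σ⁻¹ * τ) π) = τ π := by
    rw [AlgEquiv.mul_apply]
    exact AlgEquiv.apply_symm_apply σ (τ π)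
  rw [h2] at h1
  simpa [cj_def] using h1

/-- **key formula**: `‖P(β)‖ = ∏_τ max(d, ‖π - τ π‖)` where `d = ‖β - σ₀ π‖` is the distance
from `β` to the nearest conjugate of `π` -/
theorem norm_aeval_eq_prod_max (β : Ω) (σ₀ : L ≃ₐ[K] L)
    (hσ₀ : ∀ σ : L ≃ₐ[K] L, ‖β - cj (π := π) σ₀‖ ≤ ‖β - cj (π := π) σ‖) :
    ‖aeval β (minpoly K π)‖ =
      ∏ τ : L ≃ₐ[K] L, max ‖β - cj (π := π) σ₀‖ ‖(π : Ω) - cj (π := π) τ‖ := by
  rw [h.norm_aeval_eq_prod]
  rw [← Equiv.prod_comp (Equiv.mulLeft σ₀⁻¹)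
    (fun τ => max ‖β - cj (π := π) σ₀‖ ‖(π : Ω) - cj (π := π) τ‖)]
  apply Finset.prod_congr rfl
  intro τ _
  simp only [Equiv.coe_mulLeft]
  rw [← h.norm_cj_sub_cj σ₀ τ]
  have h1 : β - cj (π := π) τ = (β - cj (π := π) σ₀) + (cj (π := π) σ₀ - cj (π := π) τ) := by
    ring
  rw [h1]
  apply norm_add_eq_max_of_le
  rw [← h1]
  exact hσ₀ τ

/-- a nearest conjugate exists -/
theorem exists_nearest (β : Ω) : ∃ σ₀ : L ≃ₐ[K] L,
    ∀ σ : L ≃ₐ[K] L, ‖β - cj (π := π) σ₀‖ ≤ ‖β - cj (π := π) σ‖ := by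
  obtain ⟨σ₀, -, h0⟩ := Finset.exists_min_image (Finset.univ : Finset (L ≃ₐ[K] L))
    (fun σ => ‖β - cj (π := π) σ‖) ⟨1, Finset.mem_univ _⟩
  exact ⟨σ₀, fun σ => h0 σ (Finset.mem_univ _)⟩

end TotRam

end Fermat.Agent.S56lib.Ram
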