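/-
S56lib / Ram / Criterion (helper6).
Fontaine's converse criterion (Prop. 1.5 (ii) of "Il n'y a pas de variété abélienne sur ℤ"),
wildly ramified case, in norm form.  `L / K` totally ramified Galois of degree `n` with
uniformizer `π`, `P = minpoly K π`.  If every `β ∈ Ω` with `‖β‖ ≤ 1`, `‖P(β)‖ ≤ r` satisfies
`L ≤ K(β)`, then `r * ‖π‖ < d₀ * ∏_{σ ≠ 1} ‖π - σ π‖`, `d₀ = min_{σ ≠ 1} ‖π - σ π‖`
(i.e. `r < ‖π‖ ^ (Φ(j₀) - 1)`).
-/
import Fermat.Agent.S56lib.Ram.Dist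

set_option autoImplicit false
set_option linter.unusedSectionVars false

noncomputable section

namespace Fermat.Agent.S56lib.Ram

open Polynomial IntermediateField

variable {K Ω : Type*} [NormedField K] [NormedField Ω] [NormedAlgebra K Ω] [IsUltrametricDist Ω]

namespace TotRam

variable {ϖ : K} {L : IntermediateField K Ω} [FiniteDimensional K L] {π : L}
  (h : TotRam ϖ L π)

include h

/-- the "different": `∏_{σ ≠ 1} ‖π - σ π‖` -/
def diffNorm [DecidableEq (L ≃ₐ[K] L)] : ℝ :=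
  ∏ σ ∈ (Finset.univ : Finset (L ≃ₐ[K] L)).erase 1, dsub (π := π) σ

variable [IsGalois K L]

/-- in the wild case `d₀ * ∏_{σ≠1} ‖π - σπ‖ = ‖π‖ ^ Φ` with `n + 2 ≤ Φ` -/
theorem exists_Phi [DecidableEq (L ≃ₐ[K] L)] (σ₁ : L ≃ₐ[K] L) (hσ₁ : σ₁ ≠ 1)
    (hwild : dsub (π := π) σ₁ < ‖(π : Ω)‖) :
    ∃ Φ : ℕ, Module.finrank K L + 2 ≤ Φ ∧
      dsub (π := π) σ₁ * diffNorm (π := π) = ‖(π : Ω)‖ ^ Φ := by
  have hex : ∀ σ : L ≃ₐ[K] L, ∃ i : ℕ, 1 ≤ i ∧ (σ ≠ 1 → dsub (π := π) σ = ‖(π : Ω)‖ ^ i) := by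
    intro σ
    by_cases hσ : σ = 1
    · exact ⟨1, le_rfl, fun h1 => absurd hσ h1⟩
    · obtain ⟨i, hi, hi'⟩ := h.dsub_eq_pow hσ
      exact ⟨i, hi, fun _ => hi'⟩
  choose i hi1 hi using hex
  have h2 : 2 ≤ i σ₁ := by
    by_contra hlt
    have h1 : i σ₁ = 1 := le_antisymm (by omega) (hi1 σ₁)
    have := hi σ₁ hσ₁
    rw [h1, pow_one] at this
    rw [this] at hwild
    exact lt_irrefl _ hwild
  refine ⟨i σ₁ + ∑ σ ∈ (Finset.univ : Finset (L ≃ₐ[K] L)).erase 1, i σ, ?_, ?_⟩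
  · have hmem : σ₁ ∈ (Finset.univ : Finset (L ≃ₐ[K] L)).erase 1 :=
      Finset.mem_erase.2 ⟨hσ₁, Finset.mem_univ _⟩
    rw [← Finset.add_sum_erase _ _ hmem]
    have h3 : (((Finset.univ : Finset (L ≃ₐ[K] L)).erase 1).erase σ₁).card • 1 ≤
        ∑ σ ∈ ((Finset.univ : Finset (L ≃ₐ[K] L)).erase 1).erase σ₁, i σ :=
      Finset.card_nsmul_le_sum _ _ _ (fun σ _ => hi1 σ)
    rw [Finset.card_erase_of_mem hmem, Finset.card_erase_of_mem (Finset.mem_univ _),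
      Finset.card_univ, ← Nat.card_eq_fintype_card, IsGalois.card_aut_eq_finrank K L,
      smul_eq_mul, mul_one] at h3
    have hn := h.finrank_pos
    omega
  · rw [pow_add, hi σ₁ hσ₁, diffNorm, ← Finset.prod_pow_eq_pow_sum]
    congr 1
    apply Finset.prod_congr rfl
    intro σ hσ
    exact hi σ (Finset.mem_erase.1 hσ).1

variable [IsAlgClosed Ω]

/-- a perturbed Eisenstein root: `‖β‖ = ‖π‖`, `‖P(β)‖ = ‖π‖ ^ N`, `[K(β):K] ≤ n` -/
theorem exists_root (N : ℕ) (hN : Module.finrank K L + 1 ≤ N) :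
    ∃ β : Ω, ‖β‖ = ‖(π : Ω)‖ ∧ ‖aeval β (minpoly K π)‖ = ‖(π : Ω)‖ ^ N ∧
      IsIntegral K β ∧ Module.finrank K K⟮β⟯ ≤ Module.finrank K L := by
  set n := Module.finrank K L with hn
  have hn0 : 0 < n := h.finrank_pos
  set a := N / n with ha
  set k := N % n with hk
  have hNak : n * a + k = N := Nat.div_add_mod N n
  have hkn : k < n := Nat.mod_lt _ hn0
  have ha1 : 1 ≤ a := by
    rw [ha]
    exact (Nat.one_le_div_iff hn0).2 (by omega)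
  have hak : 2 ≤ a ∨ 1 ≤ k := by
    by_contra hcon
    push Not at hcon
    have e1 : a = 1 := by omega
    have e2 : k = 0 := by omega
    rw [e1, e2] at hNak
    omega
  have hm : (minpoly K π).Monic := minpoly.monic (Algebra.IsIntegral.isIntegral π)
  have hdeg : (minpoly K π).natDegree = n := h.natDegree_minpoly
  set Q : K[X] := C (ϖ ^ a) * X ^ k with hQ
  have hQdeg : Q.natDegree < (minpoly K π).natDegree := by
    rw [hdeg]
    exact lt_of_le_of_lt (natDegree_C_mul_X_pow_le _ _) hkn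
  have hPm : (minpoly K π + Q).Monic := by
    apply hm.add_of_left
    apply degree_lt_degree hQdeg
  have hPdeg : (minpoly K π + Q).natDegree = n := by
    rw [natDegree_add_eq_left_of_natDegree_lt hQdeg, hdeg]
  obtain ⟨β, hβ⟩ := IsAlgClosed.exists_aeval_eq_zero Ω (minpoly K π + Q) (by
    rw [degree_eq_natDegree hPm.ne_zero, hPdeg]
    exact_mod_cast hn0.ne')
  have hϖ0 := h.unif.pos
  have hϖ1 := h.unif.lt_one
  have hp0 := h.npos
  have hp1 := h.nlt_one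
  -- `P(β) = - ϖ^a β^k`
  have hPβ : ‖aeval β (minpoly K π)‖ = ‖ϖ‖ ^ a * ‖β‖ ^ k := by
    rw [map_add] at hβ
    have h1 : aeval β (minpoly K π) = - aeval β Q := eq_neg_of_add_eq_zero_left hβ
    rw [h1, norm_neg, hQ, map_mul, aeval_C, aeval_X_pow, norm_mul, norm_pow,
      norm_algebraMap', norm_pow]
  have hprod := h.norm_aeval_eq_prod β
  have hcard : (Finset.univ : Finset (L ≃ₐ[K] L)).card = n := by
    rw [Finset.card_univ, ← Nat.card_eq_fintype_card, IsGalois.card_aut_eq_finrank K L]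
  have hcjn : ∀ σ : L ≃ₐ[K] L, ‖cj (π := π) σ‖ = ‖(π : Ω)‖ := fun σ => by
    rw [cj_def, h.inv σ π]
  -- `‖β‖ = ‖π‖`
  have hβπ : ‖β‖ = ‖(π : Ω)‖ := by
    rcases lt_trichotomy ‖β‖ ‖(π : Ω)‖ with hlt | heq | hgt
    · exfalso
      have h1 : ∀ σ : L ≃ₐ[K] L, ‖β - cj (π := π) σ‖ = ‖(π : Ω)‖ := by
        intro σ
        rw [sub_eq_add_neg, IsUltrametricDist.norm_add_eq_max_of_norm_ne_norm, norm_neg, hcjn,
          max_eq_right hlt.le]
        rw [norm_neg, hcjn]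
        exact hlt.ne
      rw [hPβ, Finset.prod_congr rfl (fun σ _ => h1 σ), Finset.prod_const, hcard,
        h.npow] at hprod
      rcases hak with h2 | h2
      · have h3 : ‖ϖ‖ ^ a * ‖β‖ ^ k ≤ ‖ϖ‖ ^ 2 * 1 := by
          apply mul_le_mul (pow_le_pow_of_le_one hϖ0.le hϖ1.le h2)
            (pow_le_one₀ (norm_nonneg _) (hlt.le.trans hp1.le)) (by positivity) (by positivity)
        have h4 : ‖ϖ‖ ^ 2 < ‖ϖ‖ := by
          rw [pow_two]
          calc ‖ϖ‖ * ‖ϖ‖ < ‖ϖ‖ * 1 := by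
                apply mul_lt_mul_of_pos_left hϖ1 hϖ0
            _ = ‖ϖ‖ := mul_one _
        rw [hprod, mul_one] at h3
        exact absurd h4 (not_lt.2 h3)
      · have hb1 : ‖β‖ < 1 := hlt.trans hp1
        have h3 : ‖ϖ‖ ^ a * ‖β‖ ^ k ≤ ‖ϖ‖ * ‖β‖ := by
          apply mul_le_mul
          · calc ‖ϖ‖ ^ a ≤ ‖ϖ‖ ^ 1 := pow_le_pow_of_le_one hϖ0.le hϖ1.le ha1
              _ = ‖ϖ‖ := pow_one _
          · calc ‖β‖ ^ k ≤ ‖β‖ ^ 1 := pow_le_pow_of_le_one (norm_nonneg _) hb1.le h2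
              _ = ‖β‖ := pow_one _
          · positivity
          · positivity
        have h4 : ‖ϖ‖ * ‖β‖ < ‖ϖ‖ := by
          calc ‖ϖ‖ * ‖β‖ < ‖ϖ‖ * 1 := mul_lt_mul_of_pos_left hb1 hϖ0
            _ = ‖ϖ‖ := mul_one _
        rw [hprod] at h3
        exact absurd h4 (not_lt.2 h3)
    · exact heq
    · exfalso
      have h1 : ∀ σ : L ≃ₐ[K] L, ‖β - cj (π := π) σ‖ = ‖β‖ := by
        intro σ
        rw [sub_eq_add_neg, IsUltrametricDist.norm_add_eq_max_of_norm_ne_norm, norm_neg, hcjn,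
          max_eq_left hgt.le]
        rw [norm_neg, hcjn]
        exact hgt.ne'
      rw [hPβ, Finset.prod_congr rfl (fun σ _ => h1 σ), Finset.prod_const, hcard] at hprod
      have hb0 : 0 < ‖β‖ := hp0.trans hgt
      -- `‖ϖ‖^a ‖β‖^k = ‖β‖^n`, so `‖β‖^(n-k) = ‖ϖ‖^a ≤ ‖ϖ‖ = ‖π‖^n`
      have h2 : ‖β‖ ^ (n - k) = ‖ϖ‖ ^ a := by
        have h3 : ‖β‖ ^ n = ‖β‖ ^ (n - k) * ‖β‖ ^ k := by
          rw [← pow_add]
          congr 1
          omega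
        rw [h3] at hprod
        exact (mul_right_cancel₀ (pow_ne_zero k hb0.ne') hprod).symm
      have h4 : ‖ϖ‖ ^ a ≤ ‖ϖ‖ := by
        calc ‖ϖ‖ ^ a ≤ ‖ϖ‖ ^ 1 := pow_le_pow_of_le_one hϖ0.le hϖ1.le ha1
          _ = ‖ϖ‖ := pow_one _
      rw [← h2, ← h.npow] at h4
      rcases le_or_gt 1 ‖β‖ with hb1 | hb1
      · have h5 : (1 : ℝ) ≤ ‖β‖ ^ (n - k) := one_le_pow₀ hb1
        have h6 : ‖(π : Ω)‖ ^ n < 1 := pow_lt_one₀ hp0.le hp1 hn0.ne'
        linarith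
      · have h5 : ‖β‖ ^ n ≤ ‖β‖ ^ (n - k) :=
          pow_le_pow_of_le_one hb0.le hb1.le (Nat.sub_le _ _)
        have h6 : ‖(π : Ω)‖ ^ n < ‖β‖ ^ n := pow_lt_pow_left₀ hgt hp0.le hn0.ne'
        linarith
  have hint : IsIntegral K β := ⟨_, hPm, hβ⟩
  refine ⟨β, hβπ, ?_, hint, ?_⟩
  · rw [hPβ, hβπ, ← h.npow, ← pow_mul, ← pow_add, hNak]
  · rw [IntermediateField.adjoin.finrank hint]
    have h1 := natDegree_le_natDegree (minpoly.min K β hPm hβ)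
    rwa [hPdeg] at h1

/-- **Fontaine's converse criterion**, wild case: if every `β` with `‖β‖ ≤ 1` and
`‖P(β)‖ ≤ r` generates a field containing `L`, then `r * ‖π‖ < d₀ * ∏_{σ≠1} ‖π - σ π‖` -/
theorem fontaine_ii [DecidableEq (L ≃ₐ[K] L)] (σ₁ : L ≃ₐ[K] L) (hσ₁ : σ₁ ≠ 1)
    (hmin : ∀ σ : L ≃ₐ[K] L, σ ≠ 1 → dsub (π := π) σ₁ ≤ dsub (π := π) σ)
    (hwild : dsub (π := π) σ₁ < ‖(π : Ω)‖) (r : ℝ)
    (hP : ∀ β : Ω, IsIntegral K β → ‖β‖ ≤ 1 → ‖aeval β (minpoly K π)‖ ≤ r → L ≤ K⟮β⟯) :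
    r * ‖(π : Ω)‖ < dsub (π := π) σ₁ * diffNorm (π := π) := by
  by_contra hcon
  rw [not_lt] at hcon
  obtain ⟨Φ, hΦ, hD⟩ := h.exists_Phi σ₁ hσ₁ hwild
  have hp0 := h.npos
  have hp1 := h.nlt_one
  obtain ⟨N, rfl⟩ : ∃ N, Φ = N + 1 := ⟨Φ - 1, by omega⟩
  obtain ⟨β, hβπ, hPβ, hint, hfin⟩ := h.exists_root N (by omega)
  have hNr : ‖(π : Ω)‖ ^ N ≤ r := by
    rw [hD, pow_succ] at hcon
    exact le_of_mul_le_mul_right hcon hp0
  have hle : L ≤ K⟮β⟯ := hP β hint (by rw [hβπ]; exact hp1.le) (by rw [hPβ]; exact hNr)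
  have : FiniteDimensional K K⟮β⟯ := IntermediateField.adjoin.finiteDimensional hint
  have heq : L = K⟮β⟯ := IntermediateField.eq_of_le_of_finrank_le hle hfin
  have hβL : β ∈ L := by
    rw [heq]
    exact IntermediateField.mem_adjoin_simple_self K β
  obtain ⟨σ₀, hσ₀⟩ := h.exists_nearest β
  have hkey := h.norm_aeval_eq_prod_max β σ₀ hσ₀
  rw [hPβ] at hkey
  set d := ‖β - cj (π := π) σ₀‖ with hd
  -- `d ≠ 0`
  have hd0 : 0 < d := by
    rcases (norm_nonneg (β - cj (π := π) σ₀)).lt_or_eq with h1 | h1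
    · exact h1
    · exfalso
      have h2 := h.norm_aeval_eq_prod β
      rw [hPβ] at h2
      have h3 : ∏ σ : L ≃ₐ[K] L, ‖β - cj (π := π) σ‖ = 0 :=
        Finset.prod_eq_zero (Finset.mem_univ σ₀) h1.symm
      rw [h3] at h2
      exact (pow_pos hp0 N).ne' h2
  -- split off `τ = 1`
  have hsplit : ∏ τ : L ≃ₐ[K] L, max d (dsub (π := π) τ) =
      d * ∏ τ ∈ (Finset.univ : Finset (L ≃ₐ[K] L)).erase 1, max d (dsub (π := π) τ) := by
    rw [← Finset.mul_prod_erase _ _ (Finset.mem_univ (1 : L ≃ₐ[K] L)), dsub_one,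
      max_eq_left hd0.le]
  have hkey' : ‖(π : Ω)‖ ^ N =
      d * ∏ τ ∈ (Finset.univ : Finset (L ≃ₐ[K] L)).erase 1, max d (dsub (π := π) τ) := by
    rw [← hsplit]
    exact hkey
  rcases le_or_gt d (dsub (π := π) σ₁) with hcase | hcase
  · -- `d ≤ d₀`
    have h1 : ∏ τ ∈ (Finset.univ : Finset (L ≃ₐ[K] L)).erase 1, max d (dsub (π := π) τ) =
        diffNorm (π := π) := by
      rw [diffNorm]
      apply Finset.prod_congr rfl
      intro τ hτ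
      exact max_eq_right (hcase.trans (hmin τ (Finset.mem_erase.1 hτ).1))
    rw [h1] at hkey'
    have hdiff0 : 0 ≤ diffNorm (π := π) :=
      Finset.prod_nonneg (fun τ _ => dsub_nonneg τ)
    have h2 : ‖(π : Ω)‖ ^ N ≤ ‖(π : Ω)‖ ^ (N + 1) := by
      rw [← hD, hkey']
      exact mul_le_mul_of_nonneg_right hcase hdiff0
    have h3 : ‖(π : Ω)‖ ^ (N + 1) < ‖(π : Ω)‖ ^ N :=
      pow_lt_pow_right_of_lt_one₀ hp0 hp1 (Nat.lt_succ_self N)
    exact absurd h3 (not_lt.2 h2)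
  · -- `d > d₀`
    have hdisc : dsub (π := π) σ₁ ≤ d * ‖(π : Ω)‖ := by
      have := h.le_mul_of_lt (⟨β, hβL⟩ - σ₀ π) (π - σ₁ π) (by
        simpa [dsub_def, cj_def, hd] using hcase)
      simpa [dsub_def, cj_def, hd] using this
    have hmem : σ₁ ∈ (Finset.univ : Finset (L ≃ₐ[K] L)).erase 1 :=
      Finset.mem_erase.2 ⟨hσ₁, Finset.mem_univ _⟩
    set R := ∏ τ ∈ ((Finset.univ : Finset (L ≃ₐ[K] L)).erase 1).erase σ₁, dsub (π := π) τ
      with hR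
    have hR0 : 0 ≤ R := Finset.prod_nonneg (fun τ _ => dsub_nonneg τ)
    have h1 : d * d * R ≤ ‖(π : Ω)‖ ^ N := by
      rw [hkey', ← Finset.mul_prod_erase _ _ hmem, max_eq_left hcase.le, mul_assoc]
      apply mul_le_mul_of_nonneg_left _ hd0.le
      apply mul_le_mul_of_nonneg_left _ hd0.le
      apply Finset.prod_le_prod (fun τ _ => dsub_nonneg τ)
      intro τ _
      exact le_max_right _ _
    have h2 : ‖(π : Ω)‖ ^ (N + 1) = dsub (π := π) σ₁ * (dsub (π := π) σ₁ * R) := by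
      rw [← hD, diffNorm, ← Finset.mul_prod_erase _ _ hmem]
    have h3 : dsub (π := π) σ₁ * (dsub (π := π) σ₁ * R) ≤
        (d * ‖(π : Ω)‖) * ((d * ‖(π : Ω)‖) * R) := by
      apply mul_le_mul hdisc _ (mul_nonneg (dsub_nonneg _) hR0) (by positivity)
      exact mul_le_mul_of_nonneg_right hdisc hR0
    have h4 : (d * ‖(π : Ω)‖) * ((d * ‖(π : Ω)‖) * R) = ‖(π : Ω)‖ ^ 2 * (d * d * R) := by ring
    have h5 : ‖(π : Ω)‖ ^ (N + 1) ≤ ‖(π : Ω)‖ ^ (N + 2) := by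
      calc ‖(π : Ω)‖ ^ (N + 1) ≤ ‖(π : Ω)‖ ^ 2 * (d * d * R) := by rw [h2, ← h4]; exact h3
        _ ≤ ‖(π : Ω)‖ ^ 2 * ‖(π : Ω)‖ ^ N := mul_le_mul_of_nonneg_left h1 (by positivity)
        _ = ‖(π : Ω)‖ ^ (N + 2) := by rw [← pow_add, add_comm]
    have h6 : ‖(π : Ω)‖ ^ (N + 2) < ‖(π : Ω)‖ ^ (N + 1) :=
      pow_lt_pow_right_of_lt_one₀ hp0 hp1 (Nat.lt_succ_self (N + 1))
    exact absurd h6 (not_lt.2 h5)

end TotRam

end Fermat.Agent.S56lib.Ram
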