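/-
S56lib / Ram / Dist (helper6).
The distances `dsub σ = ‖π - σ π‖` (`= ‖π‖ ^ i_G(σ)`) in a totally ramified Galois extension.
* `TotRam.dsub_pos`, `TotRam.dsub_le`, `TotRam.dsub_eq_pow`;
* `TotRam.exists_pow_of_norm_le` : nonzero `x ∈ L` with `‖x‖ ≤ ‖π‖` has `‖x‖ = ‖π‖ ^ i`, `1 ≤ i`;
* `TotRam.le_div_of_lt` : discreteness, `‖y‖ < ‖x‖` gives `‖y‖ ≤ ‖x‖ * ‖π‖`.
-/
import Fermat.Agent.S56lib.Ram.Conj

set_option autoImplicit false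
set_option linter.unusedSectionVars false

noncomputable section

namespace Fermat.Agent.S56lib.Ram

open Polynomial

variable {K Ω : Type*} [NormedField K] [NormedField Ω] [NormedAlgebra K Ω] [IsUltrametricDist Ω]

namespace TotRam

variable {ϖ : K} {L : IntermediateField K Ω} [FiniteDimensional K L] {π : L}
  (h : TotRam ϖ L π)

include h

/-- the distance `‖π - σ π‖` -/
def dsub (σ : L ≃ₐ[K] L) : ℝ := ‖(π : Ω) - cj (π := π) σ‖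

omit h in
theorem dsub_def (σ : L ≃ₐ[K] L) : dsub (π := π) σ = ‖(π : Ω) - cj (π := π) σ‖ := rfl

omit h in
theorem dsub_one : dsub (π := π) (1 : L ≃ₐ[K] L) = 0 := by
  rw [dsub_def, cj_one, sub_self, norm_zero]

omit h in
theorem dsub_nonneg (σ : L ≃ₐ[K] L) : 0 ≤ dsub (π := π) σ := norm_nonneg _

theorem dsub_pos {σ : L ≃ₐ[K] L} (hσ : σ ≠ 1) : 0 < dsub (π := π) σ := by
  rw [dsub_def, norm_pos_iff, sub_ne_zero]
  intro h1
  apply hσ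
  apply h.cj_injective
  rw [cj_one]
  exact h1.symm

theorem dsub_le (σ : L ≃ₐ[K] L) : dsub (π := π) σ ≤ ‖(π : Ω)‖ := by
  rw [dsub_def, sub_eq_add_neg]
  apply (IsUltrametricDist.norm_add_le_max _ _).trans
  rw [norm_neg, cj_def, h.inv σ π, max_self]

/-- nonzero `x ∈ L` with `‖x‖ ≤ ‖π‖` has `‖x‖ = ‖π‖ ^ i`, `1 ≤ i` -/
theorem exists_pow_of_norm_le (x : L) (hx : x ≠ 0) (hle : ‖(x : Ω)‖ ≤ ‖(π : Ω)‖) :
    ∃ i : ℕ, 1 ≤ i ∧ ‖(x : Ω)‖ = ‖(π : Ω)‖ ^ i := by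
  obtain ⟨k, hk⟩ := h.norm_eq_zpow x hx
  rw [hk] at hle
  have h1 : (1 : ℤ) ≤ k := by
    have h2 : ‖(π : Ω)‖ ^ k ≤ ‖(π : Ω)‖ ^ (1 : ℤ) := by rwa [zpow_one]
    exact (zpow_le_zpow_iff_of_lt_one h.npos h.nlt_one).1 h2
  refine ⟨k.toNat, by omega, ?_⟩
  rw [hk, ← zpow_natCast]
  congr 1
  omega

/-- `‖π - σ π‖ = ‖π‖ ^ i`, `1 ≤ i` (`i = i_G(σ)`) -/
theorem dsub_eq_pow {σ : L ≃ₐ[K] L} (hσ : σ ≠ 1) :
    ∃ i : ℕ, 1 ≤ i ∧ dsub (π := π) σ = ‖(π : Ω)‖ ^ i := by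
  have h1 := h.exists_pow_of_norm_le (π - σ π) ?_ ?_
  · simpa [dsub_def, cj_def] using h1
  · intro h0
    have h2 := h.dsub_pos hσ
    rw [dsub_def, cj_def] at h2
    have h3 := congrArg (fun x : L => (x : Ω)) h0
    simp only [AddSubgroupClass.coe_sub, ZeroMemClass.coe_zero] at h3
    rw [h3, norm_zero] at h2
    exact lt_irrefl _ h2
  · have h2 := h.dsub_le σ
    simpa [dsub_def, cj_def] using h2

/-- discreteness: for `x y ∈ L`, `x ≠ 0`, `‖y‖ < ‖x‖` implies `‖y‖ ≤ ‖x‖ * ‖π‖` -/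
theorem le_mul_of_lt (x y : L) (hlt : ‖(y : Ω)‖ < ‖(x : Ω)‖) :
    ‖(y : Ω)‖ ≤ ‖(x : Ω)‖ * ‖(π : Ω)‖ := by
  by_cases hy : y = 0
  · rw [hy]
    simp only [ZeroMemClass.coe_zero, norm_zero]
    exact mul_nonneg (norm_nonneg _) (norm_nonneg _)
  have hx : x ≠ 0 := by
    intro h0
    rw [h0] at hlt
    simp only [ZeroMemClass.coe_zero, norm_zero] at hlt
    exact absurd hlt (not_lt.2 (norm_nonneg _))
  obtain ⟨k, hk⟩ := h.norm_eq_zpow x hx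
  obtain ⟨l, hl⟩ := h.norm_eq_zpow y hy
  rw [hk, hl] at hlt ⊢
  have h1 : k < l := (zpow_lt_zpow_iff_of_lt_one h.npos h.nlt_one).1 hlt
  rw [← zpow_add_one₀ h.npos.ne']
  exact (zpow_le_zpow_iff_of_lt_one h.npos h.nlt_one).2 (by omega)

end TotRam

end Fermat.Agent.S56lib.Ram
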