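/-
S56lib / Ram / Herbrand (helper6).
Serre, Corps locaux IV Prop. 3, the inequality needed for Herbrand's theorem, in norm form:
for a subgroup `N ≤ Gal(L/K)` and a uniformizer `π₁` of `L^N`,
`∏_{τ ∈ N} ‖π - σ τ π‖ ≤ ‖σ π₁ - π₁‖` for every `σ`.
-/
import Fermat.Agent.S56lib.Ram.Dist

set_option autoImplicit false
set_option linter.unusedSectionVars false

noncomputable section

namespace Fermat.Agent.S56lib.Ram

open Polynomial IntermediateField

variable {K Ω : Type*} [NormedField K] [NormedField Ω] [NormedAlgebra K Ω] [IsUltrametricDist Ω]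

/-- `‖x ^ i - y ^ i‖ ≤ ‖x - y‖` for integral `x, y` -/
theorem norm_pow_sub_pow_le {x y : Ω} (hx : ‖x‖ ≤ 1) (hy : ‖y‖ ≤ 1) (i : ℕ) :
    ‖x ^ i - y ^ i‖ ≤ ‖x - y‖ := by
  induction i with
  | zero => simp
  | succ i ih =>
    have h1 : x ^ (i + 1) - y ^ (i + 1) = x * (x ^ i - y ^ i) + (x - y) * y ^ i := by ring
    rw [h1]
    apply (IsUltrametricDist.norm_add_le_max _ _).trans
    apply max_le
    · rw [norm_mul]
      calc ‖x‖ * ‖x ^ i - y ^ i‖ ≤ 1 * ‖x - y‖ :=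
            mul_le_mul hx ih (norm_nonneg _) zero_le_one
        _ = ‖x - y‖ := one_mul _
    · rw [norm_mul, norm_pow]
      calc ‖x - y‖ * ‖y‖ ^ i ≤ ‖x - y‖ * 1 :=
            mul_le_mul_of_nonneg_left (pow_le_one₀ (norm_nonneg _) hy) (norm_nonneg _)
        _ = ‖x - y‖ := mul_one _

namespace TotRam

variable {ϖ : K} {L : IntermediateField K Ω} [FiniteDimensional K L] {π : L}
  (h : TotRam ϖ L π)

include h

/-- the fixed field of `N`, as an intermediate field of `Ω / K` -/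
def fixedLift (N : Subgroup (L ≃ₐ[K] L)) : IntermediateField K Ω :=
  IntermediateField.lift (IntermediateField.fixedField N)

omit h in
theorem mem_fixedLift (N : Subgroup (L ≃ₐ[K] L)) (x : L) :
    (x : Ω) ∈ fixedLift N ↔ ∀ τ ∈ N, τ x = x := by
  rw [fixedLift, IntermediateField.mem_lift, IntermediateField.mem_fixedField_iff]

omit h in
instance (N : Subgroup (L ≃ₐ[K] L)) : FiniteDimensional K (fixedLift N) :=
  LinearEquiv.finiteDimensional
    (IntermediateField.liftAlgEquiv (IntermediateField.fixedField N)).toLinearEquiv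

omit h in
theorem finrank_fixedLift (N : Subgroup (L ≃ₐ[K] L)) :
    Module.finrank K (fixedLift N) * Nat.card N = Module.finrank K L := by
  have h1 : Module.finrank K (fixedLift N) =
      Module.finrank K (IntermediateField.fixedField N) :=
    (LinearEquiv.finrank_eq
      (IntermediateField.liftAlgEquiv (IntermediateField.fixedField N)).toLinearEquiv).symm
  rw [h1, ← IntermediateField.finrank_fixedField_eq_card N]
  exact Module.finrank_mul_finrank K (IntermediateField.fixedField N) L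

theorem norm_le_one_of_fixed (σ : L ≃ₐ[K] L) : ‖((σ π : L) : Ω)‖ ≤ 1 := by
  rw [h.inv σ π]
  exact h.nlt_one.le

/-- `L^N` is totally ramified over `K` with uniformizer `π₁` -/
theorem totRam0_fixedLift (N : Subgroup (L ≃ₐ[K] L)) (π₁ : L) (hfix : ∀ τ ∈ N, τ π₁ = π₁)
    (hnorm : ‖(π₁ : Ω)‖ = ‖(π : Ω)‖ ^ Nat.card N) :
    TotRam0 ϖ (fixedLift N) ⟨(π₁ : Ω), (mem_fixedLift N π₁).2 hfix⟩ := by
  refine ⟨h.unif, ?_⟩
  change ‖(π₁ : Ω)‖ ^ Module.finrank K (fixedLift N) = ‖ϖ‖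
  rw [hnorm, ← pow_mul, mul_comm, finrank_fixedLift N, h.npow]

/-- integral `N`-invariant elements move less than the uniformizer `π₁` of `L^N` -/
theorem norm_map_sub_le (N : Subgroup (L ≃ₐ[K] L)) (π₁ : L) (hfix : ∀ τ ∈ N, τ π₁ = π₁)
    (hnorm : ‖(π₁ : Ω)‖ = ‖(π : Ω)‖ ^ Nat.card N) (c : L) (hc : ∀ τ ∈ N, τ c = c)
    (hc1 : ‖(c : Ω)‖ ≤ 1) (σ : L ≃ₐ[K] L) :
    ‖((σ c - c : L) : Ω)‖ ≤ ‖((σ π₁ - π₁ : L) : Ω)‖ := by
  have h0 := h.totRam0_fixedLift N π₁ hfix hnorm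
  obtain ⟨a, ha1, ha⟩ := h0.exists_coeffs_of_norm_le_one
    ⟨(c : Ω), (mem_fixedLift N c).2 hc⟩ hc1
  set n₁ := Module.finrank K (fixedLift N) with hn₁
  have hcL : c = ∑ j ∈ Finset.range n₁, a j • π₁ ^ j := by
    apply Subtype.ext
    rw [AddSubmonoidClass.coe_finsetSum]
    simpa using ha
  have hσc : σ c = ∑ j ∈ Finset.range n₁, a j • (σ π₁) ^ j := by
    rw [hcL, map_sum]
    apply Finset.sum_congr rfl
    intro j _
    rw [map_smul, map_pow]
  have hdiff : ((σ c - c : L) : Ω) =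
      ∑ j ∈ Finset.range n₁, a j • (((σ π₁ : L) : Ω) ^ j - (π₁ : Ω) ^ j) := by
    rw [hσc]
    conv_lhs => rw [hcL]
    rw [← Finset.sum_sub_distrib, AddSubmonoidClass.coe_finsetSum]
    apply Finset.sum_congr rfl
    intro j _
    rw [← smul_sub]
    simp
  rw [hdiff]
  apply IsUltrametricDist.norm_sum_le_of_forall_le_of_nonneg (norm_nonneg _)
  intro j hj
  rw [norm_smul]
  have hπ₁1 : ‖(π₁ : Ω)‖ ≤ 1 := by
    rw [hnorm]
    exact pow_le_one₀ h.npos.le h.nlt_one.le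
  have hσπ₁1 : ‖((σ π₁ : L) : Ω)‖ ≤ 1 := by
    rw [h.inv σ π₁]
    exact hπ₁1
  calc ‖a j‖ * ‖((σ π₁ : L) : Ω) ^ j - (π₁ : Ω) ^ j‖
      ≤ 1 * ‖((σ π₁ : L) : Ω) - (π₁ : Ω)‖ :=
        mul_le_mul (ha1 j (Finset.mem_range.1 hj)) (norm_pow_sub_pow_le hσπ₁1 hπ₁1 j)
          (norm_nonneg _) zero_le_one
    _ = ‖((σ π₁ - π₁ : L) : Ω)‖ := by rw [one_mul]; simp

/-- polynomials over `L` with integral coefficients -/
def IntCoeff (f : L[X]) : Prop := ∀ k, ‖((f.coeff k : L) : Ω)‖ ≤ 1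

omit h in
theorem intCoeff_one : IntCoeff (1 : L[X]) := by
  intro k
  rw [coeff_one]
  split_ifs <;> simp

omit h in
theorem intCoeff_mul {f g : L[X]} (hf : IntCoeff f) (hg : IntCoeff g) : IntCoeff (f * g) := by
  intro k
  rw [coeff_mul, AddSubmonoidClass.coe_finsetSum]
  apply IsUltrametricDist.norm_sum_le_of_forall_le_of_nonneg zero_le_one
  intro x _
  rw [MulMemClass.coe_mul, norm_mul]
  calc ‖((f.coeff x.1 : L) : Ω)‖ * ‖((g.coeff x.2 : L) : Ω)‖ ≤ 1 * 1 :=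
        mul_le_mul (hf _) (hg _) (norm_nonneg _) zero_le_one
    _ = 1 := one_mul _

omit h in
theorem intCoeff_X_sub_C {a : L} (ha : ‖(a : Ω)‖ ≤ 1) : IntCoeff (X - C a) := by
  intro k
  rw [coeff_sub, coeff_X, coeff_C]
  split_ifs with h1 h2 h2
  · omega
  · simp
  · simp [ha]
  · simp

/-- the minimal polynomial of `π` over `L^N` -/
def polyN (N : Subgroup (L ≃ₐ[K] L)) [Fintype N] : L[X] :=
  ∏ τ : N, (X - C ((τ : L ≃ₐ[K] L) π))

theorem intCoeff_polyN (N : Subgroup (L ≃ₐ[K] L)) [Fintype N] : IntCoeff (polyN (π := π) N) := by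
  apply Finset.prod_induction _ IntCoeff (fun f g => intCoeff_mul) intCoeff_one
  intro τ _
  exact intCoeff_X_sub_C (h.norm_le_one_of_fixed τ)

omit h in
theorem polyN_map (N : Subgroup (L ≃ₐ[K] L)) [Fintype N] (ν : L ≃ₐ[K] L) (hν : ν ∈ N) :
    (polyN (π := π) N).map (ν : L →+* L) = polyN (π := π) N := by
  rw [polyN, Polynomial.map_prod]
  rw [← Equiv.prod_comp (Equiv.mulLeft (⟨ν, hν⟩ : N))
    (fun τ : N => (X - C ((τ : L ≃ₐ[K] L) π) : L[X]))]
  apply Finset.prod_congr rfl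
  intro τ _
  rw [Polynomial.map_sub, map_X, map_C]
  rfl

omit h in
theorem coeff_polyN_fixed (N : Subgroup (L ≃ₐ[K] L)) [Fintype N] (k : ℕ) (ν : L ≃ₐ[K] L)
    (hν : ν ∈ N) : ν ((polyN (π := π) N).coeff k) = (polyN (π := π) N).coeff k := by
  have h1 := congrArg (fun f => f.coeff k) (polyN_map (π := π) N ν hν)
  simpa [coeff_map] using h1

omit h in
theorem eval_polyN (N : Subgroup (L ≃ₐ[K] L)) [Fintype N] : (polyN (π := π) N).eval π = 0 := by
  rw [polyN, eval_prod]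
  apply Finset.prod_eq_zero (Finset.mem_univ (1 : N))
  simp

omit h in
theorem eval_polyN_map (N : Subgroup (L ≃ₐ[K] L)) [Fintype N] (σ : L ≃ₐ[K] L) :
    ((polyN (π := π) N).map (σ : L →+* L)).eval π =
      ∏ τ : N, (π - (σ * (τ : L ≃ₐ[K] L)) π) := by
  rw [polyN, Polynomial.map_prod, eval_prod]
  apply Finset.prod_congr rfl
  intro τ _
  rw [Polynomial.map_sub, map_X, map_C, eval_sub, eval_X, eval_C]
  rfl

omit h in
theorem natDegree_polyN (N : Subgroup (L ≃ₐ[K] L)) [Fintype N] :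
    (polyN (π := π) N).natDegree = Fintype.card N := by
  rw [polyN, natDegree_finsetProd_X_sub_C_eq_card, Finset.card_univ]

/-- **Serre IV Prop. 3, the needed half**:
`∏_{τ ∈ N} ‖π - σ τ π‖ ≤ ‖σ π₁ - π₁‖` -/
theorem prod_coset_le (N : Subgroup (L ≃ₐ[K] L)) [Fintype N] (π₁ : L)
    (hfix : ∀ τ ∈ N, τ π₁ = π₁) (hnorm : ‖(π₁ : Ω)‖ = ‖(π : Ω)‖ ^ Nat.card N)
    (σ : L ≃ₐ[K] L) :
    ∏ τ : N, dsub (π := π) (σ * (τ : L ≃ₐ[K] L)) ≤ ‖((σ π₁ - π₁ : L) : Ω)‖ := by
  set f := polyN (π := π) N with hf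
  set m := Fintype.card N with hm
  have h1 : ((f.map (σ : L →+* L)).eval π : L) =
      ∑ k ∈ Finset.range (m + 1), (σ (f.coeff k) - f.coeff k) * π ^ k := by
    have e1 : (f.map (σ : L →+* L)).eval π =
        ∑ k ∈ Finset.range (m + 1), (f.map (σ : L →+* L)).coeff k * π ^ k := by
      apply eval_eq_sum_range'
      rw [natDegree_map_eq_of_injective (RingHom.injective _), natDegree_polyN]
      exact Nat.lt_succ_self _
    have e2 : f.eval π = ∑ k ∈ Finset.range (m + 1), f.coeff k * π ^ k := by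
      apply eval_eq_sum_range'
      rw [natDegree_polyN]
      exact Nat.lt_succ_self _
    have e3 : (f.map (σ : L →+* L)).eval π = (f.map (σ : L →+* L)).eval π - f.eval π := by
      rw [eval_polyN, sub_zero]
    rw [e3, e1, e2, ← Finset.sum_sub_distrib]
    apply Finset.sum_congr rfl
    intro k _
    rw [coeff_map, sub_mul]
    rfl
  have h2 : ∏ τ : N, dsub (π := π) (σ * (τ : L ≃ₐ[K] L)) =
      ‖(((f.map (σ : L →+* L)).eval π : L) : Ω)‖ := by
    rw [eval_polyN_map, ← IntermediateField.coe_val, map_prod, norm_prod]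
    apply Finset.prod_congr rfl
    intro τ _
    rw [dsub_def, cj_def]
    simp
  rw [h2, h1, AddSubmonoidClass.coe_finsetSum]
  apply IsUltrametricDist.norm_sum_le_of_forall_le_of_nonneg (norm_nonneg _)
  intro k _
  rw [MulMemClass.coe_mul, norm_mul]
  have h3 := h.norm_map_sub_le N π₁ hfix hnorm (f.coeff k)
    (fun ν hν => coeff_polyN_fixed N k ν hν) (h.intCoeff_polyN N k) σ
  have h4 : ‖((π ^ k : L) : Ω)‖ ≤ 1 := by
    rw [SubmonoidClass.coe_pow, norm_pow]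
    exact pow_le_one₀ h.npos.le h.nlt_one.le
  calc ‖((σ (f.coeff k) - f.coeff k : L) : Ω)‖ * ‖((π ^ k : L) : Ω)‖
      ≤ ‖((σ π₁ - π₁ : L) : Ω)‖ * 1 := mul_le_mul h3 h4 (norm_nonneg _) (norm_nonneg _)
    _ = ‖((σ π₁ - π₁ : L) : Ω)‖ := mul_one _

end TotRam

end Fermat.Agent.S56lib.Ram
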