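/-
S56lib / Ram / Tame (helper6).
Wild inertia is a `p`-group, in norm form: if the residue characteristic is `p`
(`‖(p : K)‖ < 1`) and `‖σ π - π‖ < ‖π‖`, then `σ` has `p`-power order.  Hence for a normal
subgroup `H` of index prime to `p`, `‖σ π - π‖ = ‖π‖` for all `σ ∉ H`.
-/
import Fermat.Agent.S56lib.Ram.Herbrand

set_option autoImplicit false
set_option linter.unusedSectionVars false

noncomputable section

namespace Fermat.Agent.S56lib.Ram

open Polynomial IntermediateField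

variable {K Ω : Type*} [NormedField K] [NormedField Ω] [NormedAlgebra K Ω] [IsUltrametricDist Ω]

/-- refined difference of powers: `‖x ^ l - y ^ l‖ ≤ ‖x - y‖ * r ^ (l - 1)` if `‖x‖, ‖y‖ ≤ r` -/
theorem norm_pow_sub_pow_le' {x y : Ω} {r : ℝ} (hx : ‖x‖ ≤ r) (hy : ‖y‖ ≤ r) (l : ℕ) :
    ‖x ^ (l + 1) - y ^ (l + 1)‖ ≤ ‖x - y‖ * r ^ l := by
  have hr : 0 ≤ r := (norm_nonneg _).trans hx
  induction l with
  | zero => simp
  | succ l ih =>
    have h1 : x ^ (l + 1 + 1) - y ^ (l + 1 + 1) =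
        x * (x ^ (l + 1) - y ^ (l + 1)) + (x - y) * y ^ (l + 1) := by ring
    rw [h1]
    apply (IsUltrametricDist.norm_add_le_max _ _).trans
    apply max_le
    · rw [norm_mul]
      calc ‖x‖ * ‖x ^ (l + 1) - y ^ (l + 1)‖ ≤ r * (‖x - y‖ * r ^ l) :=
            mul_le_mul hx ih (norm_nonneg _) hr
        _ = ‖x - y‖ * r ^ (l + 1) := by ring
    · rw [norm_mul, norm_pow]
      exact mul_le_mul_of_nonneg_left (pow_le_pow_left₀ (norm_nonneg _) hy _) (norm_nonneg _)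

/-- integers have norm `≤ 1` -/
theorem norm_natCast_le_one (k : ℕ) : ‖(k : Ω)‖ ≤ 1 :=
  IsUltrametricDist.norm_natCast_le_one Ω k

/-- in residue characteristic `p`, integers prime to `p` are units -/
theorem norm_natCast_eq_one {p : ℕ} (hp : p.Prime) (hpΩ : ‖(p : Ω)‖ < 1) {k : ℕ}
    (hk : ¬ p ∣ k) : ‖(k : Ω)‖ = 1 := by
  apply le_antisymm (norm_natCast_le_one k)
  have hcop : Nat.Coprime k p := ((Nat.Prime.coprime_iff_not_dvd hp).2 hk).symm
  -- `a k + b p = 1` in `ℤ`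
  have hb : (k : ℤ) * Nat.gcdA k p + (p : ℤ) * Nat.gcdB k p = 1 := by
    have := Nat.gcd_eq_gcd_ab k p
    rw [hcop] at this
    simpa using this.symm
  have hbΩ : (k : Ω) * ((Nat.gcdA k p : ℤ) : Ω) + (p : Ω) * ((Nat.gcdB k p : ℤ) : Ω) = 1 := by
    have := congrArg (fun z : ℤ => (z : Ω)) hb
    simpa using this
  by_contra hlt
  rw [not_le] at hlt
  have h1 : ‖(k : Ω) * ((Nat.gcdA k p : ℤ) : Ω) + (p : Ω) * ((Nat.gcdB k p : ℤ) : Ω)‖ < 1 := by
    apply lt_of_le_of_lt (IsUltrametricDist.norm_add_le_max _ _)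
    apply max_lt
    · rw [norm_mul]
      calc ‖(k : Ω)‖ * ‖((Nat.gcdA k p : ℤ) : Ω)‖ ≤ ‖(k : Ω)‖ * 1 :=
            mul_le_mul_of_nonneg_left (IsUltrametricDist.norm_intCast_le_one Ω _) (norm_nonneg _)
        _ < 1 := by rw [mul_one]; exact hlt
    · rw [norm_mul]
      calc ‖(p : Ω)‖ * ‖((Nat.gcdB k p : ℤ) : Ω)‖ ≤ ‖(p : Ω)‖ * 1 :=
            mul_le_mul_of_nonneg_left (IsUltrametricDist.norm_intCast_le_one Ω _) (norm_nonneg _)
        _ < 1 := by rw [mul_one]; exact hpΩ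
  rw [hbΩ, norm_one] at h1
  exact lt_irrefl _ h1

namespace TotRam

variable {ϖ : K} {L : IntermediateField K Ω} [FiniteDimensional K L] {π : L}
  (h : TotRam ϖ L π)

include h

/-- `‖σ^k x - x‖ ≤ ‖σ x - x‖` -/
theorem norm_pow_apply_sub_le (σ : L ≃ₐ[K] L) (x : L) (k : ℕ) :
    ‖(((σ ^ k) x - x : L) : Ω)‖ ≤ ‖((σ x - x : L) : Ω)‖ := by
  induction k with
  | zero => simp
  | succ k ih =>
    have h1 : (σ ^ (k + 1)) x - x = σ ((σ ^ k) x - x) + (σ x - x) := by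
      rw [pow_succ', AlgEquiv.mul_apply, map_sub]
      ring
    rw [h1, AddMemClass.coe_add]
    apply (IsUltrametricDist.norm_add_le_max _ _).trans
    apply max_le _ le_rfl
    rw [h.inv σ]
    exact ih

theorem dsub_pow_le (σ : L ≃ₐ[K] L) (k : ℕ) : dsub (π := π) (σ ^ k) ≤ dsub (π := π) σ := by
  have h1 := h.norm_pow_apply_sub_le σ π k
  rw [dsub_def, dsub_def, cj_def, cj_def, ← norm_neg ((π : Ω) - _), ← norm_neg ((π : Ω) - _)]
  simpa using h1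

/-- `σ` is `‖σ π - π‖ / ‖π‖`-close to the identity -/
theorem norm_apply_sub_mul_le (σ : L ≃ₐ[K] L) (x : L) :
    ‖((σ x - x : L) : Ω)‖ * ‖(π : Ω)‖ ≤ ‖(x : Ω)‖ * ‖((σ π - π : L) : Ω)‖ := by
  obtain ⟨a, ha⟩ := h.exists_coeffs x
  set n := Module.finrank K L with hn
  have hxL : x = ∑ j ∈ Finset.range n, a j • π ^ j := by
    apply Subtype.ext
    rw [AddSubmonoidClass.coe_finsetSum]
    simpa using ha
  have hσx : σ x = ∑ j ∈ Finset.range n, a j • (σ π) ^ j := by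
    rw [hxL, map_sum]
    apply Finset.sum_congr rfl
    intro j _
    rw [map_smul, map_pow]
  have hdiff : ((σ x - x : L) : Ω) =
      ∑ j ∈ Finset.range n, a j • (((σ π : L) : Ω) ^ j - (π : Ω) ^ j) := by
    rw [hσx]
    conv_lhs => rw [hxL]
    rw [← Finset.sum_sub_distrib, AddSubmonoidClass.coe_finsetSum]
    apply Finset.sum_congr rfl
    intro j _
    rw [← smul_sub]
    simp
  have hp0 := h.npos
  rw [← le_div_iff₀ hp0, hdiff]
  apply IsUltrametricDist.norm_sum_le_of_forall_le_of_nonneg (by positivity)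
  intro j hj
  rw [le_div_iff₀ hp0, norm_smul]
  rcases Nat.eq_zero_or_pos j with hj0 | hj0
  · rw [hj0]
    simp only [pow_zero, sub_self, norm_zero, mul_zero, zero_mul]
    positivity
  obtain ⟨l, rfl⟩ : ∃ l, j = l + 1 := ⟨j - 1, by omega⟩
  have hterm := norm_term_le_norm_sum h.unif h.finrank_pos h.npow a (l + 1) (Finset.mem_range.1 hj)
  rw [← ha, norm_smul, norm_pow] at hterm
  have hσπ : ‖((σ π : L) : Ω)‖ ≤ ‖(π : Ω)‖ := (h.inv σ π).le
  have hpow := norm_pow_sub_pow_le' hσπ le_rfl l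
  calc ‖a (l + 1)‖ * ‖((σ π : L) : Ω) ^ (l + 1) - (π : Ω) ^ (l + 1)‖ * ‖(π : Ω)‖
      ≤ ‖a (l + 1)‖ * (‖((σ π : L) : Ω) - (π : Ω)‖ * ‖(π : Ω)‖ ^ l) * ‖(π : Ω)‖ := by
        apply mul_le_mul_of_nonneg_right _ hp0.le
        exact mul_le_mul_of_nonneg_left hpow (norm_nonneg _)
    _ = (‖a (l + 1)‖ * ‖(π : Ω)‖ ^ (l + 1)) * ‖((σ π : L) : Ω) - (π : Ω)‖ := by ring
    _ ≤ ‖(x : Ω)‖ * ‖((σ π : L) : Ω) - (π : Ω)‖ :=
        mul_le_mul_of_nonneg_right hterm (norm_nonneg _)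
    _ = ‖(x : Ω)‖ * ‖((σ π - π : L) : Ω)‖ := by simp

/-- a wild automorphism of order prime to `p` is trivial -/
theorem eq_one_of_wild_of_pow_eq_one {p : ℕ} (hp : p.Prime) (hpK : ‖(p : K)‖ < 1)
    (σ : L ≃ₐ[K] L) (hwild : dsub (π := π) σ < ‖(π : Ω)‖) {k : ℕ} (hk : ¬ p ∣ k)
    (hσk : σ ^ k = 1) : σ = 1 := by
  by_contra hne
  have hpΩ : ‖(p : Ω)‖ < 1 := by
    rw [← map_natCast (algebraMap K Ω) p, norm_algebraMap']
    exact hpK
  set y : L := σ π - π with hy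
  have hyd : ‖(y : Ω)‖ = dsub (π := π) σ := by
    rw [dsub_def, cj_def, ← norm_neg]
    simp [hy]
  have hy0 : 0 < ‖(y : Ω)‖ := by
    rw [hyd]
    exact h.dsub_pos hne
  -- `‖σ y - y‖ < ‖y‖`
  have h1 : ‖((σ y - y : L) : Ω)‖ < ‖(y : Ω)‖ := by
    have h2 := h.norm_apply_sub_mul_le σ y
    have h3 : ‖(y : Ω)‖ * ‖(y : Ω)‖ < ‖(y : Ω)‖ * ‖(π : Ω)‖ := by
      apply mul_lt_mul_of_pos_left _ hy0
      rw [hyd]
      exact hwild
    have h4 : ‖((σ y - y : L) : Ω)‖ * ‖(π : Ω)‖ < ‖(y : Ω)‖ * ‖(π : Ω)‖ := lt_of_le_of_lt h2 h3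
    exact lt_of_mul_lt_mul_right h4 h.npos.le
  -- telescoping
  have htel : ∀ j : ℕ, ‖(((σ ^ j) π - π - j • y : L) : Ω)‖ < ‖(y : Ω)‖ := by
    intro j
    induction j with
    | zero => simpa using hy0
    | succ j ih =>
      have e1 : (σ ^ (j + 1)) π - π - (j + 1) • y =
          ((σ ^ j) π - π - j • y) + ((σ ^ j) y - y) := by
        rw [pow_succ, AlgEquiv.mul_apply, hy, map_sub, succ_nsmul]
        ring
      rw [e1, AddMemClass.coe_add]
      apply lt_of_le_of_lt (IsUltrametricDist.norm_add_le_max _ _)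
      apply max_lt ih
      exact lt_of_le_of_lt (h.norm_pow_apply_sub_le σ y j) h1
  have h5 := htel k
  rw [hσk] at h5
  simp only [AlgEquiv.one_apply, sub_self, zero_sub, NegMemClass.coe_neg, norm_neg] at h5
  have h6 : ‖((k • y : L) : Ω)‖ = ‖(y : Ω)‖ := by
    have : ((k • y : L) : Ω) = (k : Ω) * (y : Ω) := by
      simp [nsmul_eq_mul]
    rw [this, norm_mul, norm_natCast_eq_one hp hpΩ hk, one_mul]
  rw [h6] at h5
  exact lt_irrefl _ h5

/-- wild automorphisms have `p`-power order -/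
theorem exists_pow_eq_one_of_wild {p : ℕ} (hp : p.Prime) (hpK : ‖(p : K)‖ < 1)
    (σ : L ≃ₐ[K] L) (hwild : dsub (π := π) σ < ‖(π : Ω)‖) : ∃ a : ℕ, σ ^ (p ^ a) = 1 := by
  have hm : 0 < orderOf σ := orderOf_pos σ
  obtain ⟨a, m', hm', hmeq⟩ := Nat.exists_eq_pow_mul_and_not_dvd hm.ne' p hp.ne_one
  refine ⟨a, ?_⟩
  apply h.eq_one_of_wild_of_pow_eq_one hp hpK (σ ^ (p ^ a))
    (lt_of_le_of_lt (h.dsub_pow_le σ _) hwild) hm'
  rw [← pow_mul, ← hmeq]
  exact pow_orderOf_eq_one σ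

/-- outside a normal subgroup of index prime to `p` everything is tame -/
theorem dsub_eq_of_not_mem {p : ℕ} (hp : p.Prime) (hpK : ‖(p : K)‖ < 1)
    (H : Subgroup (L ≃ₐ[K] L)) [H.Normal] (hidx : Nat.Coprime H.index p)
    (σ : L ≃ₐ[K] L) (hσ : σ ∉ H) : dsub (π := π) σ = ‖(π : Ω)‖ := by
  by_contra hne
  have hwild : dsub (π := π) σ < ‖(π : Ω)‖ := lt_of_le_of_ne (h.dsub_le σ) hne
  obtain ⟨a, ha⟩ := h.exists_pow_eq_one_of_wild hp hpK σ hwild
  apply hσ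
  rw [← QuotientGroup.eq_one_iff]
  have h1 : (QuotientGroup.mk σ : (L ≃ₐ[K] L) ⧸ H) ^ (p ^ a) = 1 := by
    rw [← QuotientGroup.mk_pow, ha, QuotientGroup.mk_one]
  have h2 : orderOf (QuotientGroup.mk σ : (L ≃ₐ[K] L) ⧸ H) ∣ p ^ a := orderOf_dvd_of_pow_eq_one h1
  have h3 : orderOf (QuotientGroup.mk σ : (L ≃ₐ[K] L) ⧸ H) ∣ H.index := by
    rw [Subgroup.index_eq_card]
    exact orderOf_dvd_natCard _
  have h4 : orderOf (QuotientGroup.mk σ : (L ≃ₐ[K] L) ⧸ H) = 1 :=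
    Nat.eq_one_of_dvd_coprimes (Nat.Coprime.pow_right a hidx) h3 h2
  exact orderOf_eq_one_iff.1 h4

end TotRam

end Fermat.Agent.S56lib.Ram
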