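/-
S56lib / Ram / Final (helper6).
* `TotRam.herbrand_ineq` : the Herbrand-type inequality (Serre IV Prop. 3 + Lemma 5, norm form):
  for subgroups `N < H` of `Gal(L/K)` and a uniformizer `π₁` of `L^N`,
  `(d₀ * ∏_{σ ∈ H, σ ≠ 1} ‖π - σ π‖) ^ |N| ≤ δ₁ ^ |H|` if `‖σ π₁ - π₁‖ ≤ δ₁` on `H`.
* `TotRam.final_bound` : Fontaine's bound transported to a layer: if `L / K` (absolutely
  unramified base, uniformizer `p`) has Fontaine's property for all `r` with
  `r ^ (p-1) < ‖p‖ ^ p`, everything outside `H` is tame and `‖σ π₁ - π₁‖ ≤ ‖π₁‖ ^ (t+1)` on `H`,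
  then `(p - 1) * t * |H| ≤ [L:K] + (p - 1)`.
-/
import Fermat.Agent.S56lib.Ram.Tame
import Fermat.Agent.S56lib.Ram.Criterion

set_option autoImplicit false
set_option linter.unusedSectionVars false

noncomputable section

namespace Fermat.Agent.S56lib.Ram

open Polynomial IntermediateField

variable {K Ω : Type*} [NormedField K] [NormedField Ω] [NormedAlgebra K Ω] [IsUltrametricDist Ω]

namespace TotRam

variable {ϖ : K} {L : IntermediateField K Ω} [FiniteDimensional K L] {π : L}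
  (h : TotRam ϖ L π)

include h

/-- `dsub`, with the value at `1` replaced by `d₀` -/
def dmod [DecidableEq (L ≃ₐ[K] L)] (d₀ : ℝ) (σ : L ≃ₐ[K] L) : ℝ :=
  if σ = 1 then d₀ else dsub (π := π) σ

/-- `‖π - σ τ π‖ ≥ ‖π - τ π‖` if `σ` is nearest to `1` in its coset -/
theorem dsub_le_dsub_mul (σ τ : L ≃ₐ[K] L)
    (hmin : dsub (π := π) σ ≤ dsub (π := π) (σ * τ)) :
    dsub (π := π) τ ≤ dsub (π := π) (σ * τ) := by
  rcases le_or_gt (dsub (π := π) τ) (dsub (π := π) σ) with hle | hgt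
  · exact hle.trans hmin
  · have h1 : (π : Ω) - cj (π := π) (σ * τ) =
        ((π : Ω) - cj (π := π) σ) + ((σ (π - τ π) : L) : Ω) := by
      simp only [cj_def, AlgEquiv.mul_apply, map_sub, AddSubgroupClass.coe_sub]
      ring
    have h2 : ‖((σ (π - τ π) : L) : Ω)‖ = dsub (π := π) τ := by
      rw [h.inv σ, dsub_def, cj_def]
      simp
    rw [dsub_def (σ * τ), h1, IsUltrametricDist.norm_add_eq_max_of_norm_ne_norm, h2]
    · exact le_max_right _ _
    · rw [h2, ← dsub_def]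
      exact hgt.ne

/-- **Herbrand-type inequality** -/
theorem herbrand_ineq [DecidableEq (L ≃ₐ[K] L)] (H N : Subgroup (L ≃ₐ[K] L)) [Fintype H]
    [Fintype N] (hNH : N ≤ H) (σ' : L ≃ₐ[K] L) (hσ'H : σ' ∈ H) (hσ'N : σ' ∉ N)
    (π₁ : L) (hfix : ∀ τ ∈ N, τ π₁ = π₁) (hnorm : ‖(π₁ : Ω)‖ = ‖(π : Ω)‖ ^ Nat.card N)
    (d₀ : ℝ) (hd₀ : 0 ≤ d₀) (hmin : ∀ σ ∈ H, σ ≠ 1 → d₀ ≤ dsub (π := π) σ)
    (δ₁ : ℝ) (hδ : ∀ σ ∈ H, ‖((σ π₁ - π₁ : L) : Ω)‖ ≤ δ₁) :
    (∏ σ : H, dmod (π := π) d₀ (σ : L ≃ₐ[K] L)) ^ Fintype.card N ≤ δ₁ ^ Fintype.card H := by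
  have hδ0 : 0 ≤ δ₁ := (norm_nonneg _).trans (hδ 1 (one_mem H))
  have hdm0 : ∀ σ : L ≃ₐ[K] L, 0 ≤ dmod (π := π) d₀ σ := by
    intro σ
    rw [dmod]
    split_ifs
    · exact hd₀
    · exact dsub_nonneg σ
  -- the multiplicity trick
  have hmult : (∏ σ : H, dmod (π := π) d₀ (σ : L ≃ₐ[K] L)) ^ Fintype.card N =
      ∏ σ : H, ∏ τ : N, dmod (π := π) d₀ ((σ : L ≃ₐ[K] L) * (τ : L ≃ₐ[K] L)) := by
    rw [Finset.prod_comm]
    have : ∀ τ : N, ∏ σ : H, dmod (π := π) d₀ ((σ : L ≃ₐ[K] L) * (τ : L ≃ₐ[K] L)) =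
        ∏ σ : H, dmod (π := π) d₀ (σ : L ≃ₐ[K] L) := by
      intro τ
      exact Equiv.prod_comp (Equiv.mulRight (⟨τ, hNH τ.2⟩ : H))
        (fun σ : H => dmod (π := π) d₀ (σ : L ≃ₐ[K] L))
    rw [Finset.prod_congr rfl (fun τ _ => this τ), Finset.prod_const, Finset.card_univ]
  rw [hmult]
  -- the nearest element of the coset `σ' N`
  obtain ⟨τ₀, -, hτ₀⟩ := Finset.exists_min_image (Finset.univ : Finset N)
    (fun τ => dsub (π := π) (σ' * (τ : L ≃ₐ[K] L))) ⟨1, Finset.mem_univ _⟩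
  set σ'' := σ' * (τ₀ : L ≃ₐ[K] L) with hσ''
  have hσ''H : σ'' ∈ H := H.mul_mem hσ'H (hNH τ₀.2)
  have hσ''N : σ'' ∉ N := by
    intro hmem
    apply hσ'N
    have := N.mul_mem hmem (N.inv_mem τ₀.2)
    simpa [hσ''] using this
  have hσ''1 : σ'' ≠ 1 := fun h1 => hσ''N (h1 ▸ N.one_mem)
  have hσ''min : ∀ τ : N, dsub (π := π) σ'' ≤ dsub (π := π) (σ'' * (τ : L ≃ₐ[K] L)) := by
    intro τ
    have := hτ₀ (τ₀ * τ) (Finset.mem_univ _)
    simpa [hσ'', mul_assoc] using this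
  -- the bound on the coset `N`
  have hB : ∏ τ : N, dmod (π := π) d₀ (τ : L ≃ₐ[K] L) ≤ δ₁ := by
    calc ∏ τ : N, dmod (π := π) d₀ (τ : L ≃ₐ[K] L)
        ≤ ∏ τ : N, dsub (π := π) (σ'' * (τ : L ≃ₐ[K] L)) := by
          apply Finset.prod_le_prod (fun τ _ => hdm0 _)
          intro τ _
          rw [dmod]
          split_ifs with hτ1
          · rw [hτ1, mul_one]
            exact hmin σ'' hσ''H hσ''1
          · exact h.dsub_le_dsub_mul σ'' τ (hσ''min τ)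
      _ ≤ ‖((σ'' π₁ - π₁ : L) : Ω)‖ := h.prod_coset_le N π₁ hfix hnorm σ''
      _ ≤ δ₁ := hδ σ'' hσ''H
  calc ∏ σ : H, ∏ τ : N, dmod (π := π) d₀ ((σ : L ≃ₐ[K] L) * (τ : L ≃ₐ[K] L))
      ≤ ∏ _σ : H, δ₁ := by
        apply Finset.prod_le_prod (fun σ _ => Finset.prod_nonneg (fun τ _ => hdm0 _))
        intro σ _
        by_cases hσN : (σ : L ≃ₐ[K] L) ∈ N
        · have : ∏ τ : N, dmod (π := π) d₀ ((σ : L ≃ₐ[K] L) * (τ : L ≃ₐ[K] L)) =
              ∏ τ : N, dmod (π := π) d₀ (τ : L ≃ₐ[K] L) :=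
            Equiv.prod_comp (Equiv.mulLeft (⟨σ, hσN⟩ : N))
              (fun τ : N => dmod (π := π) d₀ (τ : L ≃ₐ[K] L))
          rw [this]
          exact hB
        · have : ∏ τ : N, dmod (π := π) d₀ ((σ : L ≃ₐ[K] L) * (τ : L ≃ₐ[K] L)) =
              ∏ τ : N, dsub (π := π) ((σ : L ≃ₐ[K] L) * (τ : L ≃ₐ[K] L)) := by
            apply Finset.prod_congr rfl
            intro τ _
            rw [dmod, if_neg]
            intro h1
            apply hσN
            have h2 : (σ : L ≃ₐ[K] L) = (τ : L ≃ₐ[K] L)⁻¹ := eq_inv_of_mul_eq_one_left h1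
            rw [h2]
            exact N.inv_mem τ.2
          rw [this]
          exact (h.prod_coset_le N π₁ hfix hnorm σ).trans (hδ σ σ.2)
    _ = δ₁ ^ Fintype.card H := by rw [Finset.prod_const, Finset.card_univ]

end TotRam

namespace TotRam

variable {L : IntermediateField K Ω} [FiniteDimensional K L] {π : L}

/-- **Fontaine's bound on a layer.**  `K` absolutely unramified (uniformizer `p`), `L / K`
totally ramified Galois with Fontaine's property for all `r` with `r ^ (p-1) < ‖p‖ ^ p`;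
`N < H` subgroups of `Gal(L/K)`, everything outside `H` tame, `π₁` a uniformizer of `L^N` with
`‖σ π₁ - π₁‖ ≤ ‖π₁‖ ^ (t+1)` for `σ ∈ H`.  Then `(p-1) t |H| ≤ [L:K] + (p-1)`. -/
theorem final_bound [DecidableEq (L ≃ₐ[K] L)] [IsGalois K L] [IsAlgClosed Ω] {p : ℕ}
    (h : TotRam ((p : ℕ) : K) L π)
    (hF : ∀ r : ℝ, r ^ (p - 1) < ‖((p : ℕ) : K)‖ ^ p → ∀ β : Ω, IsIntegral K β → ‖β‖ ≤ 1 →
      ‖aeval β (minpoly K π)‖ ≤ r → L ≤ K⟮β⟯)
    (H N : Subgroup (L ≃ₐ[K] L)) [Fintype H] [Fintype N] (hNH : N ≤ H)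
    (σ' : L ≃ₐ[K] L) (hσ'H : σ' ∈ H) (hσ'N : σ' ∉ N)
    (hH : ∀ σ : L ≃ₐ[K] L, σ ∉ H → dsub (π := π) σ = ‖(π : Ω)‖)
    (π₁ : L) (hfix : ∀ τ ∈ N, τ π₁ = π₁) (hnorm : ‖(π₁ : Ω)‖ = ‖(π : Ω)‖ ^ Nat.card N)
    (t : ℕ) (hδ : ∀ σ ∈ H, ‖((σ π₁ - π₁ : L) : Ω)‖ ≤ ‖(π₁ : Ω)‖ ^ (t + 1)) :
    (p - 1) * (t * Fintype.card H) ≤ Module.finrank K L + (p - 1) := by
  classical
  have hp0 := h.npos
  have hp1 := h.nlt_one
  set n := Module.finrank K L with hn
  have hcardN : 0 < Fintype.card N := Fintype.card_pos_iff.2 ⟨1⟩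
  have hcardH : 0 < Fintype.card H := Fintype.card_pos_iff.2 ⟨1⟩
  have hNcard : Nat.card N = Fintype.card N := Nat.card_eq_fintype_card
  have hδ1 : (‖(π₁ : Ω)‖ ^ (t + 1)) ^ Fintype.card H =
      ‖(π : Ω)‖ ^ (Fintype.card N * (t + 1) * Fintype.card H) := by
    rw [hnorm, hNcard, ← pow_mul, ← pow_mul, mul_assoc]
  by_cases hw : ∃ σ : L ≃ₐ[K] L, σ ≠ 1 ∧ dsub (π := π) σ < ‖(π : Ω)‖
  · -- wild case
    obtain ⟨σw, hσw1, hσw⟩ := hw
    obtain ⟨σ₁, hσ₁mem, hσ₁min⟩ := Finset.exists_min_image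
      ((Finset.univ : Finset (L ≃ₐ[K] L)).erase 1) (fun σ => dsub (π := π) σ)
      ⟨σw, Finset.mem_erase.2 ⟨hσw1, Finset.mem_univ _⟩⟩
    have hσ₁ : σ₁ ≠ 1 := (Finset.mem_erase.1 hσ₁mem).1
    have hmin : ∀ σ : L ≃ₐ[K] L, σ ≠ 1 → dsub (π := π) σ₁ ≤ dsub (π := π) σ :=
      fun σ hσ => hσ₁min σ (Finset.mem_erase.2 ⟨hσ, Finset.mem_univ _⟩)
    have hwild : dsub (π := π) σ₁ < ‖(π : Ω)‖ := lt_of_le_of_lt (hmin σw hσw1) hσw
    obtain ⟨Φ, hΦ, hD⟩ := h.exists_Phi σ₁ hσ₁ hwild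
    obtain ⟨Φ', rfl⟩ : ∃ Φ', Φ = Φ' + 1 := ⟨Φ - 1, by omega⟩
    -- Step 1: Fontaine
    have hstep1 : (p - 1) * Φ' ≤ n * p := by
      by_contra hcon
      rw [not_le] at hcon
      have hr : (‖(π : Ω)‖ ^ Φ') ^ (p - 1) < ‖((p : ℕ) : K)‖ ^ p := by
        rw [← h.npow, ← pow_mul, ← pow_mul]
        apply pow_lt_pow_right_of_lt_one₀ hp0 hp1
        rw [mul_comm Φ']
        exact hcon
      have h1 := h.fontaine_ii σ₁ hσ₁ hmin hwild (‖(π : Ω)‖ ^ Φ') (hF _ hr)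
      rw [hD, pow_succ] at h1
      exact lt_irrefl _ h1
    -- Step 2: split the different
    set sH : Finset (L ≃ₐ[K] L) := Finset.univ.filter (fun σ => σ ∈ H) with hsH
    set sC : Finset (L ≃ₐ[K] L) := Finset.univ.filter (fun σ => σ ∉ H) with hsC
    have h1H : (1 : L ≃ₐ[K] L) ∈ sH := Finset.mem_filter.2 ⟨Finset.mem_univ _, H.one_mem⟩
    have hcards : sH.card + sC.card = n := by
      rw [hsH, hsC, Finset.card_filter_add_card_filter_not, Finset.card_univ,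
        ← Nat.card_eq_fintype_card, IsGalois.card_aut_eq_finrank K L]
    have hsHcard : sH.card = Fintype.card H :=
      (Fintype.card_of_subtype sH (fun x => by simp [hsH])).symm
    have hPH : ∏ σ : H, dmod (π := π) (dsub (π := π) σ₁) (σ : L ≃ₐ[K] L) =
        dsub (π := π) σ₁ * ∏ σ ∈ sH.erase 1, dsub (π := π) σ := by
      rw [← Finset.prod_subtype sH (fun x => by simp [hsH])
        (fun σ => dmod (π := π) (dsub (π := π) σ₁) σ),
        ← Finset.mul_prod_erase sH _ h1H]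
      congr 1
      · simp [dmod]
      · apply Finset.prod_congr rfl
        intro σ hσ
        rw [dmod, if_neg (Finset.mem_erase.1 hσ).1]
    have hsplit : diffNorm (π := π) =
        (∏ σ ∈ sH.erase 1, dsub (π := π) σ) * ‖(π : Ω)‖ ^ sC.card := by
      rw [diffNorm]
      have hunion : (Finset.univ : Finset (L ≃ₐ[K] L)).erase 1 = sH.erase 1 ∪ sC := by
        ext σ
        simp only [Finset.mem_erase, Finset.mem_univ, and_true, Finset.mem_union, hsH, hsC,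
          Finset.mem_filter, true_and]
        constructor
        · intro h1
          by_cases hσH : σ ∈ H
          · exact Or.inl ⟨h1, hσH⟩
          · exact Or.inr hσH
        · rintro (⟨h1, -⟩ | h2)
          · exact h1
          · intro h1
            exact h2 (h1 ▸ H.one_mem)
      have hdisj : Disjoint (sH.erase 1) sC := by
        rw [Finset.disjoint_left]
        intro σ h1 h2
        exact (Finset.mem_filter.1 h2).2 (Finset.mem_filter.1 (Finset.mem_of_mem_erase h1)).2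
      rw [hunion, Finset.prod_union hdisj]
      congr 1
      rw [Finset.prod_congr rfl (fun σ hσ => hH σ (Finset.mem_filter.1 hσ).2),
        Finset.prod_const]
    -- Step 3: Herbrand
    have hherb := h.herbrand_ineq H N hNH σ' hσ'H hσ'N π₁ hfix hnorm (dsub (π := π) σ₁)
      (dsub_nonneg _) (fun σ _ hσ1 => hmin σ hσ1) (‖(π₁ : Ω)‖ ^ (t + 1)) hδ
    rw [hδ1, hPH] at hherb
    -- Step 4: exponents
    have hexp : ‖(π : Ω)‖ ^ ((Φ' + 1) * Fintype.card N) ≤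
        ‖(π : Ω)‖ ^ (Fintype.card N * (t + 1) * Fintype.card H + sC.card * Fintype.card N) := by
      rw [pow_mul, ← hD, hsplit, ← mul_assoc, mul_pow, pow_add, ← pow_mul]
      exact mul_le_mul_of_nonneg_right hherb (by positivity)
    have hexp' := (pow_le_pow_iff_right_of_lt_one₀ hp0 hp1).1 hexp
    have hΦge : (t + 1) * Fintype.card H + sC.card ≤ Φ' + 1 := by
      have e1 : Fintype.card N * (t + 1) * Fintype.card H + sC.card * Fintype.card N =
          ((t + 1) * Fintype.card H + sC.card) * Fintype.card N := by ring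
      rw [e1] at hexp'
      exact Nat.le_of_mul_le_mul_right hexp' hcardN
    -- Step 5: arithmetic
    have h5 : t * Fintype.card H + n ≤ Φ' + 1 := by
      have : (t + 1) * Fintype.card H = t * Fintype.card H + Fintype.card H := by ring
      omega
    have h6 : (p - 1) * (t * Fintype.card H + n) ≤ (p - 1) * (Φ' + 1) :=
      Nat.mul_le_mul_left _ h5
    have h7 : (p - 1) * (t * Fintype.card H + n) =
        (p - 1) * (t * Fintype.card H) + (p - 1) * n := by ring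
    have h8 : (p - 1) * (Φ' + 1) = (p - 1) * Φ' + (p - 1) := by ring
    have h9 : n * p = (p - 1) * n + n ∨ p = 0 := by
      rcases Nat.eq_zero_or_pos p with hp | hp
      · exact Or.inr hp
      · left
        obtain ⟨q, rfl⟩ : ∃ q, p = q + 1 := ⟨p - 1, by omega⟩
        simp only [Nat.add_sub_cancel]
        ring
    rcases h9 with h9 | h9
    · omega
    · subst h9
      simp
  · -- tame case: `t = 0`
    have hall : ∀ σ : L ≃ₐ[K] L, σ ≠ 1 → dsub (π := π) σ = ‖(π : Ω)‖ := by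
      intro σ hσ
      by_contra hne
      exact hw ⟨σ, hσ, lt_of_le_of_ne (h.dsub_le σ) hne⟩
    have hherb := h.herbrand_ineq H N hNH σ' hσ'H hσ'N π₁ hfix hnorm ‖(π : Ω)‖ hp0.le
      (fun σ _ hσ1 => (hall σ hσ1).ge) (‖(π₁ : Ω)‖ ^ (t + 1)) hδ
    have hPH : ∏ σ : H, dmod (π := π) ‖(π : Ω)‖ (σ : L ≃ₐ[K] L) =
        ‖(π : Ω)‖ ^ Fintype.card H := by
      rw [← Finset.card_univ, ← Finset.prod_const]
      apply Finset.prod_congr rfl
      intro σ _
      rw [dmod]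
      split_ifs with h1
      · rfl
      · exact hall _ h1
    rw [hδ1, hPH, ← pow_mul] at hherb
    have hexp' := (pow_le_pow_iff_right_of_lt_one₀ hp0 hp1).1 hherb
    have ht : t = 0 := by
      by_contra ht
      have h1 : 1 ≤ t := Nat.one_le_iff_ne_zero.2 ht
      have h2 : Fintype.card N * (1 + 1) * Fintype.card H ≤
          Fintype.card N * (t + 1) * Fintype.card H :=
        Nat.mul_le_mul_right _ (Nat.mul_le_mul_left _ (by omega))
      have h3 : Fintype.card N * (1 + 1) * Fintype.card H =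
          2 * (Fintype.card H * Fintype.card N) := by ring
      have h4 : 0 < Fintype.card H * Fintype.card N := Nat.mul_pos hcardH hcardN
      omega
    rw [ht]
    simp

/-- **the break bound**: with `[L:K] = e' |H|` and `p ≤ |H|`, `(p-1) t ≤ e'` -/
theorem break_bound [DecidableEq (L ≃ₐ[K] L)] [IsGalois K L] [IsAlgClosed Ω] {p : ℕ}
    (h : TotRam ((p : ℕ) : K) L π)
    (hF : ∀ r : ℝ, r ^ (p - 1) < ‖((p : ℕ) : K)‖ ^ p → ∀ β : Ω, IsIntegral K β → ‖β‖ ≤ 1 →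
      ‖aeval β (minpoly K π)‖ ≤ r → L ≤ K⟮β⟯)
    (H N : Subgroup (L ≃ₐ[K] L)) [Fintype H] [Fintype N] (hNH : N ≤ H)
    (σ' : L ≃ₐ[K] L) (hσ'H : σ' ∈ H) (hσ'N : σ' ∉ N)
    (hH : ∀ σ : L ≃ₐ[K] L, σ ∉ H → dsub (π := π) σ = ‖(π : Ω)‖)
    (π₁ : L) (hfix : ∀ τ ∈ N, τ π₁ = π₁) (hnorm : ‖(π₁ : Ω)‖ = ‖(π : Ω)‖ ^ Nat.card N)
    (t : ℕ) (hδ : ∀ σ ∈ H, ‖((σ π₁ - π₁ : L) : Ω)‖ ≤ ‖(π₁ : Ω)‖ ^ (t + 1))
    (e' : ℕ) (he' : Module.finrank K L = e' * Fintype.card H) (hpH : p ≤ Fintype.card H) :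
    (p - 1) * t ≤ e' := by
  have h1 := h.final_bound hF H N hNH σ' hσ'H hσ'N hH π₁ hfix hnorm t hδ
  rw [he'] at h1
  by_contra hcon
  rw [not_le] at hcon
  have h2 : (e' + 1) * Fintype.card H ≤ (p - 1) * t * Fintype.card H :=
    Nat.mul_le_mul_right _ hcon
  have h3 : (p - 1) * (t * Fintype.card H) = (p - 1) * t * Fintype.card H := by ring
  have h4 : (e' + 1) * Fintype.card H = e' * Fintype.card H + Fintype.card H := by ring
  have hH0 : 0 < Fintype.card H := Fintype.card_pos_iff.2 ⟨1⟩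
  omega

end TotRam

end Fermat.Agent.S56lib.Ram
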