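/-
S56lib / Ram / KummerBreak (helper6).
**Fontaine's bound for a Kummer layer.**  `L / K` totally ramified Galois (`K` absolutely
unramified, uniformizer `p`) with Fontaine's property, `H ≤ Gal(L/K)` containing the wild part,
`ϖ'` a uniformizer of `L^H`, `ζ ∈ L^H` a primitive `p`-th root of unity, `y ∈ L` with
`y ^ p ∈ L^H`.
* `TotRam.kummer_core` : a uniformizer `π₁` of `L^N` (`N` the stabiliser of `y` in `H`) with
  `‖σ π₁ - π₁‖ ≤ ‖π₁‖ ^ (t+1)` on `H` forces `(p-1) t ≤ [L^H : K]`;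
* `TotRam.kummer_unit_bound` : if `‖y^p - 1‖ = ‖ϖ'‖ ^ i`, `p ∤ i`, below the top level, then
  `‖y^p - 1‖ ≤ ‖p‖`;
* `TotRam.kummer_val_false` : `‖y^p‖ = ‖ϖ'‖ ^ m` with `p ∤ m` is impossible.
-/
import Fermat.Agent.S56lib.Ram.Fprop
import Fermat.Agent.S56lib.Kum.Break

set_option autoImplicit false
set_option linter.unusedSectionVars false

noncomputable section

namespace Fermat.Agent.S56lib.Ram

open Polynomial IntermediateField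

variable {K Ω : Type*} [NormedField K] [NormedField Ω] [NormedAlgebra K Ω] [IsUltrametricDist Ω]

namespace TotRam

variable {L : IntermediateField K Ω} [FiniteDimensional K L] {π : L}

/-- the stabiliser of `y` in `H` -/
def stabIn (H : Subgroup (L ≃ₐ[K] L)) (y : L) : Subgroup (L ≃ₐ[K] L) where
  carrier := {σ | σ ∈ H ∧ σ y = y}
  mul_mem' := by
    rintro σ τ ⟨hσ, hσy⟩ ⟨hτ, hτy⟩
    exact ⟨H.mul_mem hσ hτ, by rw [AlgEquiv.mul_apply, hτy, hσy]⟩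
  one_mem' := ⟨H.one_mem, rfl⟩
  inv_mem' := by
    rintro σ ⟨hσ, hσy⟩
    refine ⟨H.inv_mem hσ, ?_⟩
    have h1 : σ⁻¹ (σ y) = y := by
      rw [← AlgEquiv.mul_apply, inv_mul_cancel, AlgEquiv.one_apply]
    rwa [hσy] at h1

theorem mem_stabIn {H : Subgroup (L ≃ₐ[K] L)} {y : L} {σ : L ≃ₐ[K] L} :
    σ ∈ stabIn H y ↔ σ ∈ H ∧ σ y = y := Iff.rfl

theorem stabIn_le (H : Subgroup (L ≃ₐ[K] L)) (y : L) : stabIn H y ≤ H := fun _ h => h.1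

/-- a uniformizer of `L^H`: the norm of `π` -/
theorem exists_unif_fixed {ϖ : K} (h : TotRam ϖ L π) (H : Subgroup (L ≃ₐ[K] L)) :
    ∃ ϖ' : L, (∀ σ ∈ H, σ ϖ' = ϖ') ∧ ‖(ϖ' : Ω)‖ = ‖(π : Ω)‖ ^ Nat.card H := by
  classical
  let _ : Fintype H := Fintype.ofFinite H
  refine ⟨∏ ν : H, (ν : L ≃ₐ[K] L) π, ?_, ?_⟩
  · intro σ hσ
    rw [map_prod]
    exact Fintype.prod_equiv (Equiv.mulLeft (⟨σ, hσ⟩ : H)) _ _ (fun ν => rfl)
  · have h1 : ((∏ ν : H, (ν : L ≃ₐ[K] L) π : L) : Ω) =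
        ∏ ν : H, (((ν : L ≃ₐ[K] L) π : L) : Ω) := by
      simp
    have h2 : ∀ ν : H, ‖(((ν : L ≃ₐ[K] L) π : L) : Ω)‖ = ‖(π : Ω)‖ :=
      fun ν => h.inv (ν : L ≃ₐ[K] L) π
    rw [h1, norm_prod, Finset.prod_congr rfl (fun ν _ => h2 ν),
      Finset.prod_const, Finset.card_univ, Nat.card_eq_fintype_card]

section Char

variable {p : ℕ} (hp : p.Prime) (H : Subgroup (L ≃ₐ[K] L)) {ζ : L} (hζ : IsPrimitiveRoot ζ p)
  (hζfix : ∀ σ ∈ H, σ ζ = ζ) {y : L} (hy0 : y ≠ 0) (hyfix : ∀ σ ∈ H, σ (y ^ p) = y ^ p)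

include hp hζ hy0 hyfix in
/-- the Kummer character -/
theorem exists_pow_mul (σ : L ≃ₐ[K] L) (hσ : σ ∈ H) : ∃ j : ℕ, j < p ∧ σ y = ζ ^ j * y := by
  have : NeZero p := ⟨hp.ne_zero⟩
  have h1 : (σ y / y) ^ p = 1 := by
    rw [div_pow, ← map_pow, hyfix σ hσ, div_self (pow_ne_zero _ hy0)]
  obtain ⟨j, hj, hj'⟩ := hζ.eq_pow_of_pow_eq_one h1
  exact ⟨j, hj, by rw [hj', div_mul_cancel₀ _ hy0]⟩

include hζfix in
theorem pow_apply_of_apply {σ : L ≃ₐ[K] L} (hσ : σ ∈ H) {ξ : L} (hξ : ∃ j : ℕ, ξ = ζ ^ j)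
    (hσy : σ y = ξ * y) (k : ℕ) : (σ ^ k) y = ξ ^ k * y := by
  obtain ⟨j, rfl⟩ := hξ
  induction k with
  | zero => simp
  | succ k ih =>
    rw [pow_succ', AlgEquiv.mul_apply, ih, map_mul, map_pow, map_pow, hζfix σ hσ, hσy]
    ring

include hp hζ hζfix hy0 hyfix in
/-- `|H| = p |N|` if `H` moves `y` -/
theorem card_eq_mul_card_stabIn (σ' : L ≃ₐ[K] L) (hσ'H : σ' ∈ H) (hσ'y : σ' y ≠ y) :
    Nat.card H = p * Nat.card (stabIn H y) := by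
  obtain ⟨j, hj, hσ'⟩ := exists_pow_mul hp H hζ hy0 hyfix σ' hσ'H
  have hj0 : j ≠ 0 := by
    rintro rfl
    apply hσ'y
    rw [hσ', pow_zero, one_mul]
  have hξ : IsPrimitiveRoot (ζ ^ j) p :=
    hζ.pow_of_coprime j (Nat.coprime_of_lt_prime hj0 hj hp).symm
  set ξ : L := ζ ^ j with hξdef
  have hpow : ∀ k : ℕ, (σ' ^ k) y = ξ ^ k * y :=
    pow_apply_of_apply H hζfix hσ'H ⟨j, rfl⟩ hσ'
  -- the bijection `Fin p × N → H`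
  let f : Fin p × stabIn H y → H := fun x =>
    ⟨σ' ^ (x.1 : ℕ) * (x.2 : L ≃ₐ[K] L), H.mul_mem (H.pow_mem hσ'H _) x.2.2.1⟩
  have hf : Function.Bijective f := by
    constructor
    · rintro ⟨k, ν⟩ ⟨k', ν'⟩ hkk
      have h1 : σ' ^ (k : ℕ) * (ν : L ≃ₐ[K] L) = σ' ^ (k' : ℕ) * (ν' : L ≃ₐ[K] L) :=
        congrArg Subtype.val hkk
      have h2 : ξ ^ (k : ℕ) * y = ξ ^ (k' : ℕ) * y := by
        have h3 := congrArg (fun τ : L ≃ₐ[K] L => τ y) h1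
        simp only [AlgEquiv.mul_apply] at h3
        rwa [ν.2.2, ν'.2.2, hpow, hpow] at h3
      have h4 : ξ ^ (k : ℕ) = ξ ^ (k' : ℕ) := mul_right_cancel₀ hy0 h2
      have h5 : (k : ℕ) = (k' : ℕ) := hξ.pow_inj k.2 k'.2 h4
      have h6 : k = k' := Fin.ext h5
      subst h6
      have h7 : (ν : L ≃ₐ[K] L) = (ν' : L ≃ₐ[K] L) := mul_left_cancel h1
      rw [Subtype.ext h7]
    · rintro ⟨σ, hσ⟩
      obtain ⟨k, hk, hσy⟩ := exists_pow_mul hp H hξ hy0 hyfix σ hσ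
      have hν : (σ' ^ k)⁻¹ * σ ∈ stabIn H y := by
        refine ⟨H.mul_mem (H.inv_mem (H.pow_mem hσ'H _)) hσ, ?_⟩
        rw [AlgEquiv.mul_apply, hσy, ← hpow k, ← AlgEquiv.mul_apply, inv_mul_cancel,
          AlgEquiv.one_apply]
      refine ⟨(⟨k, hk⟩, ⟨_, hν⟩), ?_⟩
      apply Subtype.ext
      show σ' ^ k * ((σ' ^ k)⁻¹ * σ) = σ
      rw [mul_inv_cancel_left]
  rw [← Nat.card_congr (Equiv.ofBijective f hf), Nat.card_prod, Nat.card_fin]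

end Char

section Core

variable [IsGalois K L] [IsAlgClosed Ω] {p : ℕ} (hp : p.Prime)
  (h : TotRam ((p : ℕ) : K) L π)
  (hF : ∀ r : ℝ, r ^ (p - 1) < ‖((p : ℕ) : K)‖ ^ p → Fprop ((p : ℕ) : K) r L)
  (H : Subgroup (L ≃ₐ[K] L))
  (hH : ∀ σ : L ≃ₐ[K] L, σ ∉ H → dsub (π := π) σ = ‖(π : Ω)‖)
  {ϖ' : L} (hϖnorm : ‖(ϖ' : Ω)‖ = ‖(π : Ω)‖ ^ Nat.card H)
  {ζ : L} (hζ : IsPrimitiveRoot ζ p) (hζfix : ∀ σ ∈ H, σ ζ = ζ)
  {y : L} (hy0 : y ≠ 0) (hyfix : ∀ σ ∈ H, σ (y ^ p) = y ^ p)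

include hp h hF hH hϖnorm hζ hζfix hy0 hyfix in
/-- **the Kummer layer**: a uniformizer `π₁` of `L^N` moving by at most `‖π₁‖ ^ (t+1)` under `H`
forces `(p-1) t ≤ [L^H : K]`. -/
theorem kummer_core (σ' : L ≃ₐ[K] L) (hσ'H : σ' ∈ H) (hσ'y : σ' y ≠ y)
    (π₁ : L) (hπ₁fix : ∀ σ ∈ H, σ y = y → σ π₁ = π₁) (hπ₁norm : ‖(π₁ : Ω)‖ ^ p = ‖(ϖ' : Ω)‖)
    (t : ℕ) (hδ : ∀ σ ∈ H, ‖((σ π₁ - π₁ : L) : Ω)‖ ≤ ‖(π₁ : Ω)‖ ^ (t + 1)) :
    (p - 1) * t ≤ Module.finrank K (fixedLift H) := by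
  classical
  let _ : Fintype H := Fintype.ofFinite H
  let _ : Fintype (stabIn H y) := Fintype.ofFinite _
  have hcard := card_eq_mul_card_stabIn hp H hζ hζfix hy0 hyfix σ' hσ'H hσ'y
  have hNpos : 0 < Nat.card (stabIn H y) := Nat.card_pos
  refine h.break_bound_of_Fprop hF H (stabIn H y) (stabIn_le H y) σ' hσ'H
    (fun hc => hσ'y hc.2) hH π₁ (fun τ hτ => hπ₁fix τ hτ.1 hτ.2) ?_ t hδ _ ?_ ?_
  · have h1 : ‖(π₁ : Ω)‖ ^ p = (‖(π : Ω)‖ ^ Nat.card (stabIn H y)) ^ p := by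
      rw [hπ₁norm, hϖnorm, hcard, ← pow_mul, mul_comm]
    exact (pow_left_inj₀ (norm_nonneg _) (pow_nonneg (norm_nonneg _) _) hp.ne_zero).1 h1
  · rw [← Nat.card_eq_fintype_card, finrank_fixedLift]
  · rw [← Nat.card_eq_fintype_card, hcard]
    exact Nat.le_mul_of_pos_right p hNpos

end Core

section Bounds

variable [IsGalois K L] [IsAlgClosed Ω] {p : ℕ} (hp : p.Prime)
  (h : TotRam ((p : ℕ) : K) L π)
  (hF : ∀ r : ℝ, r ^ (p - 1) < ‖((p : ℕ) : K)‖ ^ p → Fprop ((p : ℕ) : K) r L)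
  (H : Subgroup (L ≃ₐ[K] L))
  (hH : ∀ σ : L ≃ₐ[K] L, σ ∉ H → dsub (π := π) σ = ‖(π : Ω)‖)
  {ϖ' : L} (hϖfix : ∀ σ ∈ H, σ ϖ' = ϖ') (hϖnorm : ‖(ϖ' : Ω)‖ = ‖(π : Ω)‖ ^ Nat.card H)
  {ζ : L} (hζ : IsPrimitiveRoot ζ p) (hζfix : ∀ σ ∈ H, σ ζ = ζ)
  {y : L} (hyfix : ∀ σ ∈ H, σ (y ^ p) = y ^ p)

include h hϖfix hϖnorm in
/-- the value group of `L^H` is generated by `‖ϖ'‖` -/
theorem norm_eq_zpow_of_fixed (x : L) (hx : ∀ σ ∈ H, σ x = x) (hx0 : x ≠ 0) :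
    ∃ k : ℤ, ‖x‖ = ‖ϖ'‖ ^ k := by
  have h0 := h.totRam0_fixedLift H ϖ' hϖfix hϖnorm
  have hx0' : (⟨(x : Ω), (mem_fixedLift H x).2 hx⟩ : fixedLift H) ≠ 0 := by
    intro hc
    apply hx0
    apply Subtype.ext
    have hc' : ((⟨(x : Ω), (mem_fixedLift H x).2 hx⟩ : fixedLift H) : Ω) = ((0 : fixedLift H) : Ω) :=
      congrArg Subtype.val hc
    exact hc'
  exact h0.norm_eq_zpow ⟨(x : Ω), (mem_fixedLift H x).2 hx⟩ hx0'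

include hp h hϖfix hϖnorm hζ hζfix in
/-- `‖ζ - 1‖ = ‖ϖ'‖ ^ lam` with `lam (p-1) = [L^H : K]` -/
theorem exists_lam : ∃ lam : ℤ, ‖ζ - 1‖ = ‖ϖ'‖ ^ lam ∧ 0 < lam ∧
    lam * ((p : ℤ) - 1) = Module.finrank K (fixedLift H) := by
  have h0 := h.totRam0_fixedLift H ϖ' hϖfix hϖnorm
  have hϖpos : 0 < ‖ϖ'‖ := h0.npos
  have hϖlt : ‖ϖ'‖ < 1 := h0.nlt_one
  have hpL : ‖((p : ℕ) : L)‖ = ‖((p : ℕ) : K)‖ := by
    rw [← norm_algebraMap' L ((p : ℕ) : K), map_natCast]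
  have hpL1 : ‖((p : ℕ) : L)‖ < 1 := by rw [hpL]; exact h.unif.lt_one
  have hz1 : ζ - 1 ≠ 0 := sub_ne_zero.2 (Kum.zeta_ne_one hp hζ)
  have hzfix : ∀ σ ∈ H, σ (ζ - 1) = ζ - 1 := by
    intro σ hσ
    rw [map_sub, map_one, hζfix σ hσ]
  obtain ⟨lam, hlam⟩ := norm_eq_zpow_of_fixed h H hϖfix hϖnorm (ζ - 1) hzfix hz1
  have hnpow : ‖ϖ'‖ ^ Module.finrank K (fixedLift H) = ‖((p : ℕ) : K)‖ := h0.npow
  have h1 := Kum.norm_zeta_sub_one_pow hp hζ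
  rw [hlam, hpL, ← hnpow, ← zpow_natCast, ← zpow_mul, ← zpow_natCast] at h1
  have h2 := zpow_injective_of_lt_one hϖpos hϖlt h1
  have hp1 : ((p - 1 : ℕ) : ℤ) = (p : ℤ) - 1 := by
    have := hp.one_lt
    omega
  rw [hp1] at h2
  refine ⟨lam, hlam, ?_, h2⟩
  have h3 := Kum.norm_zeta_sub_one_lt_one hp hpL1 hζ
  rw [hlam, ← zpow_zero ‖ϖ'‖, zpow_lt_zpow_iff_of_lt_one hϖpos hϖlt] at h3
  exact h3

include hp hζ in
theorem norm_pow_sub_one_eq {j : ℕ} (hj : j < p) (hj0 : j ≠ 0) : ‖ζ ^ j - 1‖ = ‖ζ - 1‖ := by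
  have hξ : IsPrimitiveRoot (ζ ^ j) p :=
    hζ.pow_of_coprime j (Nat.coprime_of_lt_prime hj0 hj hp).symm
  have h1 := Kum.norm_zeta_sub_one_pow hp hξ
  rw [← Kum.norm_zeta_sub_one_pow hp hζ] at h1
  exact (pow_left_inj₀ (norm_nonneg _) (norm_nonneg _)
    (Nat.sub_ne_zero_of_lt hp.one_lt)).1 h1

include hp h hF hH hϖfix hϖnorm hζ hζfix hyfix in
/-- **the unit case**: below the top level, a level `i` prime to `p` is `≥ e'`, i.e.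
`‖y ^ p - 1‖ ≤ ‖p‖`. -/
theorem kummer_unit_bound (h1 : ‖y ^ p - 1‖ < 1)
    (h2 : ‖((p : ℕ) : L)‖ ^ p < ‖y ^ p - 1‖ ^ (p - 1))
    (i : ℤ) (hlev : ‖y ^ p - 1‖ = ‖ϖ'‖ ^ i) (hpi : ¬ (p : ℤ) ∣ i) :
    ‖y ^ p - 1‖ ≤ ‖((p : ℕ) : L)‖ := by
  have h0 := h.totRam0_fixedLift H ϖ' hϖfix hϖnorm
  have hϖpos : 0 < ‖ϖ'‖ := h0.npos
  have hϖlt : ‖ϖ'‖ < 1 := h0.nlt_one
  have hϖ0 : ϖ' ≠ 0 := norm_pos_iff.1 hϖpos
  have hpL : ‖((p : ℕ) : L)‖ = ‖((p : ℕ) : K)‖ := by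
    rw [← norm_algebraMap' L ((p : ℕ) : K), map_natCast]
  have hpL1 : ‖((p : ℕ) : L)‖ < 1 := by rw [hpL]; exact h.unif.lt_one
  have hnpow : ‖ϖ'‖ ^ Module.finrank K (fixedLift H) = ‖((p : ℕ) : K)‖ := h0.npow
  obtain ⟨lam, hlam, hlampos, hlame⟩ := exists_lam hp h H hϖfix hϖnorm hζ hζfix
  have hp1 : (0 : ℤ) < (p : ℤ) - 1 := by
    have := hp.one_lt
    omega
  -- Bezout
  have hcop : IsCoprime (p : ℤ) i :=
    (Prime.coprime_iff_not_dvd (Nat.prime_iff_prime_int.mp hp)).2 hpi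
  obtain ⟨b, a, hba⟩ := hcop
  have hab : a * i + b * p = 1 := by rw [← hba]; ring
  -- Lemma A
  have hA := Kum.norm_root_sub_one_pow hp h1 h2
  have hy0 : y ≠ 0 := by
    rintro rfl
    rw [zero_pow hp.ne_zero, zero_sub, norm_neg, norm_one] at h1
    exact lt_irrefl _ h1
  have hy1 : y - 1 ≠ 0 := by
    intro hc
    rw [hc, norm_zero, zero_pow hp.ne_zero] at hA
    rw [← hA] at hlev
    exact (zpow_pos hϖpos i).ne hlev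
  -- `H` moves `y`
  have hmove : ∃ σ' ∈ H, σ' y ≠ y := by
    by_contra hcon
    push Not at hcon
    have hfix1 : ∀ σ ∈ H, σ (y - 1) = y - 1 := by
      intro σ hσ
      rw [map_sub, map_one, hcon σ hσ]
    obtain ⟨k, hk⟩ := norm_eq_zpow_of_fixed h H hϖfix hϖnorm (y - 1) hfix1 hy1
    rw [hk, hlev, ← zpow_natCast, ← zpow_mul] at hA
    have h3 := zpow_injective_of_lt_one hϖpos hϖlt hA
    exact hpi ⟨k, by rw [← h3]; ring⟩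
  obtain ⟨σ', hσ'H, hσ'y⟩ := hmove
  -- the uniformizer
  set π₁ : L := (y - 1) ^ a * ϖ' ^ b with hπ₁
  have hπ₁norm : ‖π₁‖ ^ p = ‖ϖ'‖ := Kum.norm_kummer_unif_pow hp hϖ0 h1 h2 hlev hab
  have hπ₁fix : ∀ σ ∈ H, σ y = y → σ π₁ = π₁ := by
    intro σ hσ hσy
    rw [hπ₁, map_mul, map_zpow₀, map_zpow₀, map_sub, map_one, hσy, hϖfix σ hσ]
  set ρ : ℝ := ‖π₁‖ with hρ
  have hρ0 : 0 ≤ ρ := norm_nonneg _
  have hρpos : 0 < ρ := by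
    rcases hρ0.lt_or_eq with h3 | h3
    · exact h3
    · exfalso
      rw [← h3, zero_pow hp.ne_zero] at hπ₁norm
      exact hϖpos.ne hπ₁norm
  have hρlt : ρ < 1 := by
    by_contra hc
    push Not at hc
    have := one_le_pow₀ hc (n := p)
    rw [hπ₁norm] at this
    linarith
  have hπ₁0 : π₁ ≠ 0 := norm_pos_iff.1 hρpos
  -- norms as powers of `ρ`
  have hϖρ : ∀ k : ℤ, ‖ϖ'‖ ^ k = ρ ^ ((p : ℤ) * k) := by
    intro k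
    rw [← hπ₁norm, ← zpow_natCast, ← zpow_mul]
  have hzρ : ‖ζ - 1‖ = ρ ^ ((p : ℤ) * lam) := by rw [hlam, hϖρ]
  have hyρ : ‖y - 1‖ = ρ ^ i := by
    have h3 : ‖y - 1‖ ^ p = (ρ ^ i) ^ p := by
      rw [hA, hlev, hϖρ, ← zpow_natCast (ρ ^ i), ← zpow_mul, mul_comm]
    exact (pow_left_inj₀ (norm_nonneg _) (zpow_nonneg hρ0 _) hp.ne_zero).1 h3
  -- `i < p lam`
  have hlt := Kum.norm_zeta_sub_one_lt hp hζ h1 h2
  rw [hzρ, hyρ, zpow_lt_zpow_iff_of_lt_one hρpos hρlt] at hlt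
  set t : ℕ := ((p : ℤ) * lam - i).toNat with ht
  have htcast : (t : ℤ) = (p : ℤ) * lam - i := Int.toNat_of_nonneg (by omega)
  -- the break
  have hδ : ∀ σ ∈ H, ‖((σ π₁ - π₁ : L) : Ω)‖ ≤ ‖(π₁ : Ω)‖ ^ (t + 1) := by
    intro σ hσ
    show ‖σ π₁ - π₁‖ ≤ ρ ^ (t + 1)
    obtain ⟨j, hj, hσy⟩ := exists_pow_mul hp H hζ hy0 hyfix σ hσ
    rcases eq_or_ne j 0 with rfl | hj0
    · rw [pow_zero, one_mul] at hσy
      rw [hπ₁fix σ hσ hσy, sub_self, norm_zero]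
      exact pow_nonneg hρ0 _
    have hξ : IsPrimitiveRoot (ζ ^ j) p :=
      hζ.pow_of_coprime j (Nat.coprime_of_lt_prime hj0 hj hp).symm
    have hC2 := Kum.norm_kummer_unif_map (i := i) hp hpL1 hξ hϖ0 h1 h2 hab
      (σ : L →+* L) hσy (hϖfix σ hσ)
    rw [norm_pow_sub_one_eq hp hζ hj hj0, hzρ, hyρ, ← zpow_sub₀ hρpos.ne'] at hC2
    have h3 : σ π₁ - π₁ = π₁ * (σ π₁ / π₁ - 1) := by
      field_simp
    rw [h3, norm_mul]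
    have h4 : ‖σ π₁ / π₁ - 1‖ = ρ ^ ((p : ℤ) * lam - i) := hC2
    rw [h4, ← htcast, zpow_natCast, pow_succ']
  have hcore := kummer_core hp h hF H hH hϖnorm hζ hζfix hy0 hyfix σ' hσ'H hσ'y π₁ hπ₁fix
    hπ₁norm t hδ
  -- conclusion
  have hcoreZ : ((p : ℤ) - 1) * ((p : ℤ) * lam - i) ≤ lam * ((p : ℤ) - 1) := by
    rw [hlame, ← htcast]
    have hp1' : ((p - 1 : ℕ) : ℤ) = (p : ℤ) - 1 := by
      have := hp.one_lt
      omega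
    rw [← hp1']
    exact_mod_cast hcore
  have hle : (p : ℤ) * lam - i ≤ lam := by
    by_contra hc
    push Not at hc
    have := mul_lt_mul_of_pos_left hc hp1
    linarith
  have hfin : (Module.finrank K (fixedLift H) : ℤ) ≤ i := by
    rw [← hlame]
    linarith
  rw [hlev, hpL, ← hnpow, ← zpow_natCast, zpow_le_zpow_iff_of_lt_one hϖpos hϖlt]
  exact hfin

include hp h hF hH hϖfix hϖnorm hζ hζfix hyfix in
/-- **the valuation case** cannot occur: `‖y ^ p‖ = ‖ϖ'‖ ^ m` with `p ∤ m` is impossible. -/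
theorem kummer_val_false (hy0 : y ≠ 0) (m : ℤ) (hlev : ‖y ^ p‖ = ‖ϖ'‖ ^ m)
    (hpm : ¬ (p : ℤ) ∣ m) : False := by
  have h0 := h.totRam0_fixedLift H ϖ' hϖfix hϖnorm
  have hϖpos : 0 < ‖ϖ'‖ := h0.npos
  have hϖlt : ‖ϖ'‖ < 1 := h0.nlt_one
  have hϖ0 : ϖ' ≠ 0 := norm_pos_iff.1 hϖpos
  obtain ⟨lam, hlam, hlampos, hlame⟩ := exists_lam hp h H hϖfix hϖnorm hζ hζfix
  have hp1 : (0 : ℤ) < (p : ℤ) - 1 := by
    have := hp.one_lt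
    omega
  have hcop : IsCoprime (p : ℤ) m :=
    (Prime.coprime_iff_not_dvd (Nat.prime_iff_prime_int.mp hp)).2 hpm
  obtain ⟨b, a, hba⟩ := hcop
  have hab : a * m + b * p = 1 := by rw [← hba]; ring
  -- `H` moves `y`
  have hmove : ∃ σ' ∈ H, σ' y ≠ y := by
    by_contra hcon
    push Not at hcon
    obtain ⟨k, hk⟩ := norm_eq_zpow_of_fixed h H hϖfix hϖnorm y hcon hy0
    rw [norm_pow, hk, ← zpow_natCast, ← zpow_mul] at hlev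
    have h3 := zpow_injective_of_lt_one hϖpos hϖlt hlev
    exact hpm ⟨k, by rw [← h3]; ring⟩
  obtain ⟨σ', hσ'H, hσ'y⟩ := hmove
  set π₁ : L := y ^ a * ϖ' ^ b with hπ₁
  have hπ₁norm : ‖π₁‖ ^ p = ‖ϖ'‖ := Kum.norm_kummer_unif_pow_val hϖ0 hlev hab
  have hπ₁fix : ∀ σ ∈ H, σ y = y → σ π₁ = π₁ := by
    intro σ hσ hσy
    rw [hπ₁, map_mul, map_zpow₀, map_zpow₀, hσy, hϖfix σ hσ]
  set ρ : ℝ := ‖π₁‖ with hρ
  have hρ0 : 0 ≤ ρ := norm_nonneg _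
  have hρpos : 0 < ρ := by
    rcases hρ0.lt_or_eq with h3 | h3
    · exact h3
    · exfalso
      rw [← h3, zero_pow hp.ne_zero] at hπ₁norm
      exact hϖpos.ne hπ₁norm
  have hπ₁0 : π₁ ≠ 0 := norm_pos_iff.1 hρpos
  have hzρ : ‖ζ - 1‖ = ρ ^ ((p : ℤ) * lam) := by
    rw [hlam, ← hπ₁norm, ← zpow_natCast, ← zpow_mul]
  set t : ℕ := ((p : ℤ) * lam).toNat with ht
  have htcast : (t : ℤ) = (p : ℤ) * lam :=
    Int.toNat_of_nonneg (mul_nonneg (Int.natCast_nonneg p) hlampos.le)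
  have hδ : ∀ σ ∈ H, ‖((σ π₁ - π₁ : L) : Ω)‖ ≤ ‖(π₁ : Ω)‖ ^ (t + 1) := by
    intro σ hσ
    show ‖σ π₁ - π₁‖ ≤ ρ ^ (t + 1)
    obtain ⟨j, hj, hσy⟩ := exists_pow_mul hp H hζ hy0 hyfix σ hσ
    rcases eq_or_ne j 0 with rfl | hj0
    · rw [pow_zero, one_mul] at hσy
      rw [hπ₁fix σ hσ hσy, sub_self, norm_zero]
      exact pow_nonneg hρ0 _
    have hξ : IsPrimitiveRoot (ζ ^ j) p :=
      hζ.pow_of_coprime j (Nat.coprime_of_lt_prime hj0 hj hp).symm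
    have hD2 := Kum.norm_kummer_unif_map_val (m := m) hp hξ hϖ0 hy0 hab
      (σ : L →+* L) hσy (hϖfix σ hσ)
    rw [norm_pow_sub_one_eq hp hζ hj hj0, hzρ] at hD2
    have h3 : σ π₁ - π₁ = π₁ * (σ π₁ / π₁ - 1) := by
      field_simp
    rw [h3, norm_mul]
    have h4 : ‖σ π₁ / π₁ - 1‖ = ρ ^ ((p : ℤ) * lam) := hD2
    rw [h4, ← htcast, zpow_natCast, pow_succ']
  have hcore := kummer_core hp h hF H hH hϖnorm hζ hζfix hy0 hyfix σ' hσ'H hσ'y π₁ hπ₁fix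
    hπ₁norm t hδ
  have hcoreZ : ((p : ℤ) - 1) * ((p : ℤ) * lam) ≤ lam * ((p : ℤ) - 1) := by
    rw [hlame, ← htcast]
    have hp1' : ((p - 1 : ℕ) : ℤ) = (p : ℤ) - 1 := by
      have := hp.one_lt
      omega
    rw [← hp1']
    exact_mod_cast hcore
  have hle : (p : ℤ) * lam ≤ lam := by
    by_contra hc
    push Not at hc
    have := mul_lt_mul_of_pos_left hc hp1
    linarith
  have hp2 : (2 : ℤ) ≤ p := by exact_mod_cast hp.two_le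
  nlinarith

end Bounds

end TotRam

end Fermat.Agent.S56lib.Ram
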