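/-
S56lib / Ram / Tot (helper6).
A finite Galois extension `L / K` inside an ultrametric normed field `Ω`, totally ramified in
the sense that some `π ∈ L` has `‖π‖ ^ [L:K] = ‖ϖ‖` (`ϖ` a uniformizer of the discretely normed
field `K`), the norm being invariant under `Gal(L/K)`.
* `TotRam.exists_coeffs` : `1, π, …, π^(n-1)` span `L`;
* `TotRam.norm_eq_zpow` : the value group of `L` is generated by `‖π‖`;
* `TotRam.minpoly_map_eq_prod` : `minpoly K π = ∏_σ (X - σ π)`;
* `TotRam.norm_aeval_eq_prod_max` : `‖P(β)‖ = ∏_τ max(d, ‖π - τ π‖)`, `d = min_σ ‖β - σ π‖`.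
-/
import Fermat.Agent.S56lib.Ram.Basic

set_option autoImplicit false
set_option linter.unusedSectionVars false

noncomputable section

namespace Fermat.Agent.S56lib.Ram

open Polynomial

variable {K Ω : Type*} [NormedField K] [NormedField Ω] [NormedAlgebra K Ω] [IsUltrametricDist Ω]

/-- `L / K` is totally ramified with uniformizer `π` -/
structure TotRam0 (ϖ : K) (L : IntermediateField K Ω) (π : L) : Prop where
  unif : IsUnif ϖ
  npow : ‖(π : Ω)‖ ^ Module.finrank K L = ‖ϖ‖

/-- `L / K` is totally ramified with uniformizer `π`, and the norm is Galois invariant -/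
structure TotRam (ϖ : K) (L : IntermediateField K Ω) (π : L) : Prop extends TotRam0 ϖ L π where
  inv : ∀ (σ : L ≃ₐ[K] L) (x : L), ‖((σ x : L) : Ω)‖ = ‖(x : Ω)‖

namespace TotRam0

variable {ϖ : K} {L : IntermediateField K Ω} [FiniteDimensional K L] {π : L}
  (h : TotRam0 ϖ L π)

include h

theorem finrank_pos : 0 < Module.finrank K L := Module.finrank_pos

theorem npos : 0 < ‖(π : Ω)‖ := norm_pi_pos h.unif h.finrank_pos h.npow

theorem nlt_one : ‖(π : Ω)‖ < 1 := norm_pi_lt_one h.unif h.finrank_pos h.npow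

theorem pi_ne_zero : (π : Ω) ≠ 0 := norm_pos_iff.1 h.npos

/-- the powers `π^i`, `i < n`, are linearly independent over `K` -/
theorem linearIndependent_pow :
    LinearIndependent K (fun i : Fin (Module.finrank K L) => π ^ (i : ℕ)) := by
  rw [Fintype.linearIndependent_iff]
  intro g hg i
  by_contra hi
  let a : ℕ → K := fun j => if hj : j < Module.finrank K L then g ⟨j, hj⟩ else 0
  have h1 : ∑ j ∈ Finset.range (Module.finrank K L), a j • (π : Ω) ^ j ≠ 0 := by
    apply sum_ne_zero_of_coeff_ne_zero h.unif h.finrank_pos h.npow a i i.2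
    simp only [a, i.2, dif_pos]
    exact hi
  apply h1
  rw [Finset.sum_range]
  have h2 := congrArg (fun x : L => (x : Ω)) hg
  simp only [IntermediateField.coe_sum, IntermediateField.coe_smul, IntermediateField.coe_pow,
    ZeroMemClass.coe_zero] at h2
  rw [← h2]
  apply Finset.sum_congr rfl
  intro j _
  simp only [a, j.2, dif_pos]

/-- the basis `1, π, …, π^(n-1)` of `L` -/
def powBasis : Module.Basis (Fin (Module.finrank K L)) K L :=
  haveI : Nonempty (Fin (Module.finrank K L)) := ⟨⟨0, h.finrank_pos⟩⟩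
  basisOfLinearIndependentOfCardEqFinrank h.linearIndependent_pow (Fintype.card_fin _)

theorem powBasis_apply (i : Fin (Module.finrank K L)) : h.powBasis i = π ^ (i : ℕ) := by
  simp [powBasis]

/-- every element of `L` is a `K`-combination of `1, π, …, π^(n-1)` -/
theorem exists_coeffs (x : L) : ∃ a : ℕ → K,
    (x : Ω) = ∑ j ∈ Finset.range (Module.finrank K L), a j • (π : Ω) ^ j := by
  let a : ℕ → K := fun j => if hj : j < Module.finrank K L then h.powBasis.repr x ⟨j, hj⟩ else 0
  refine ⟨a, ?_⟩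
  have h1 := h.powBasis.sum_repr x
  have h2 := congrArg (fun x : L => (x : Ω)) h1
  simp only [IntermediateField.coe_sum, IntermediateField.coe_smul, h.powBasis_apply,
    IntermediateField.coe_pow] at h2
  rw [← h2, Finset.sum_range]
  apply Finset.sum_congr rfl
  intro j _
  simp only [a, j.2, dif_pos]

/-- the value group of `L` is generated by `‖π‖` -/
theorem norm_eq_zpow (x : L) (hx : x ≠ 0) : ∃ k : ℤ, ‖(x : Ω)‖ = ‖(π : Ω)‖ ^ k := by
  obtain ⟨a, ha⟩ := h.exists_coeffs x
  rw [ha]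
  apply norm_sum_pow_eq_zpow h.unif h.finrank_pos h.npow
  rw [← ha]
  intro h0
  apply hx
  exact_mod_cast h0

/-- elements of `L` of norm `< 1` have norm `≤ ‖π‖` -/
theorem norm_le_of_lt_one (x : L) (hx : ‖(x : Ω)‖ < 1) : ‖(x : Ω)‖ ≤ ‖(π : Ω)‖ := by
  by_cases h0 : x = 0
  · rw [h0]
    simp only [ZeroMemClass.coe_zero, norm_zero]
    exact h.npos.le
  obtain ⟨k, hk⟩ := h.norm_eq_zpow x h0
  rw [hk] at hx ⊢
  rw [← zpow_zero ‖(π : Ω)‖, zpow_lt_zpow_iff_of_lt_one h.npos h.nlt_one] at hx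
  have h1 : ‖(π : Ω)‖ ^ k ≤ ‖(π : Ω)‖ ^ (1 : ℤ) :=
    (zpow_le_zpow_iff_of_lt_one h.npos h.nlt_one).2 (by omega)
  rwa [zpow_one] at h1

/-- elements of `L` of norm `≤ 1` are `𝒪_K`-combinations of `1, π, …, π^(n-1)` -/
theorem exists_coeffs_of_norm_le_one (x : L) (hx : ‖(x : Ω)‖ ≤ 1) : ∃ a : ℕ → K,
    (∀ j, j < Module.finrank K L → ‖a j‖ ≤ 1) ∧
    (x : Ω) = ∑ j ∈ Finset.range (Module.finrank K L), a j • (π : Ω) ^ j := by
  obtain ⟨a, ha⟩ := h.exists_coeffs x
  refine ⟨a, ?_, ha⟩
  intro j hj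
  rw [ha] at hx
  exact norm_coeff_le_one_of_norm_sum_le_one h.unif h.finrank_pos h.npow a hx j hj

end TotRam0

end Fermat.Agent.S56lib.Ram
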